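import Mathlib.AlgebraicGeometry.AlgClosed.Basic
import Mathlib.AlgebraicGeometry.Geometrically.Connected
import Mathlib.AlgebraicGeometry.Geometrically.Integral
import Mathlib.AlgebraicGeometry.Morphisms.Proper
import Mathlib.AlgebraicGeometry.Morphisms.Smooth

/-!
# Generic criteria for properness, separatedness and geometric connectedness

Criteria used for the Jacobian: separatedness from a difference map, properness and geometric
connectedness from a surjection by a proper geometrically integral scheme, smoothness from charts,
and geometric integrality of fibre products over a field.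
-/

set_option autoImplicit false

noncomputable section

universe u

open CategoryTheory CategoryTheory.Limits AlgebraicGeometry

namespace Fermat.Agent.Jacobian

/-- A morphism with a closed immersion section `e` and a difference map `δ` whose fibre over `e`
is the diagonal is separated. -/
theorem isSeparated_of_difference {X S : Scheme.{u}} (p : X ⟶ S) (e : S ⟶ X)
    [IsClosedImmersion e] (he : e ≫ p = 𝟙 S) (δ : pullback p p ⟶ X)
    (hδ : δ ≫ p = pullback.fst p p ≫ p)
    (h : ∀ {T : Scheme.{u}} (a b : T ⟶ X) (w : a ≫ p = b ≫ p),
      pullback.lift a b w ≫ δ = (a ≫ p) ≫ e ↔ a = b) :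
    IsSeparated p := by
  have hd : pullback.diagonal p = pullback.lift (𝟙 X) (𝟙 X) rfl := rfl
  have comm : pullback.diagonal p ≫ δ = p ≫ e := by
    rw [hd, (h (𝟙 X) (𝟙 X) rfl).mpr rfl, Category.id_comp]
  have key : ∀ s : PullbackCone δ e, s.snd = (s.fst ≫ pullback.fst p p) ≫ p := by
    intro s
    calc s.snd = (s.snd ≫ e) ≫ p := by rw [Category.assoc, he, Category.comp_id]
      _ = (s.fst ≫ δ) ≫ p := by rw [s.condition]
      _ = _ := by simp only [Category.assoc, hδ]
  have heq : ∀ s : PullbackCone δ e, s.fst ≫ pullback.fst p p = s.fst ≫ pullback.snd p p := by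
    intro s
    have w : (s.fst ≫ pullback.fst p p) ≫ p = (s.fst ≫ pullback.snd p p) ≫ p := by
      simp only [Category.assoc, pullback.condition]
    refine (h _ _ w).mp ?_
    have hlift : pullback.lift (s.fst ≫ pullback.fst p p) (s.fst ≫ pullback.snd p p) w = s.fst :=
      pullback.hom_ext (pullback.lift_fst _ _ _) (pullback.lift_snd _ _ _)
    rw [hlift, s.condition, ← key]
  have hpb : IsPullback (pullback.diagonal p) p δ e := by
    refine ⟨⟨comm⟩, ⟨PullbackCone.IsLimit.mk _ (fun s => s.fst ≫ pullback.fst p p)
      (fun s => ?_) (fun s => (key s).symm) (fun s m h₁ _ => ?_)⟩⟩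
    · refine pullback.hom_ext ?_ ?_
      · simp only [Category.assoc, pullback.diagonal_fst, Category.comp_id]
      · simp only [Category.assoc, pullback.diagonal_snd, Category.comp_id, heq s]
    · rw [← h₁]; simp
  refine ⟨?_⟩
  exact MorphismProperty.of_isPullback (P := @IsClosedImmersion) hpb.flip ‹IsClosedImmersion e›

/-- The target of a surjection from a proper scheme is proper, if separated and locally of finite
type. -/
theorem isProper_of_surjective {X J S : Scheme.{u}} (g : X ⟶ J) (p : J ⟶ S) [Surjective g]
    [UniversallyClosed (g ≫ p)] [IsSeparated p] [LocallyOfFiniteType p] : IsProper p :=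
  have := UniversallyClosed.of_comp_surjective g p
  ⟨⟩

/-- Geometric connectedness passes to targets of surjections. -/
theorem geometricallyConnected_of_surjective {X J S : Scheme.{u}} (g : X ⟶ J) (p : J ⟶ S)
    [Surjective g] [GeometricallyConnected (g ≫ p)] : GeometricallyConnected p := by
  refine ⟨geometrically_iff_of_isClosedUnderIsomorphisms.mpr fun K _ y => ?_⟩
  have : ConnectedSpace ↥(pullback (g ≫ p) y) :=
    GeometricallyConnected.geometrically_connectedSpace _ _ _ (.of_hasPullback _ _)
  let m := pullback.map (g ≫ p) y p y g (𝟙 _) (𝟙 _) (by simp) (by simp)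
  have hm₁ : m ≫ pullback.fst p y = pullback.fst (g ≫ p) y ≫ g := pullback.lift_fst _ _ _
  have hm₂ : m ≫ pullback.snd p y = pullback.snd (g ≫ p) y :=
    (pullback.lift_snd _ _ _).trans (Category.comp_id _)
  have hpb : IsPullback (pullback.fst (g ≫ p) y) m g (pullback.fst p y) := by
    refine IsPullback.of_bot ?_ hm₁.symm (IsPullback.of_hasPullback p y)
    rw [hm₂]
    exact IsPullback.of_hasPullback (g ≫ p) y
  have : Surjective m :=
    MorphismProperty.of_isPullback (P := @Surjective) hpb ‹Surjective g›
  exact m.surjective.connectedSpace m.continuous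

/-- Geometrically irreducible morphisms are geometrically connected. -/
theorem geometricallyConnected_of_geometricallyIrreducible {X S : Scheme.{u}} (f : X ⟶ S)
    [GeometricallyIrreducible f] : GeometricallyConnected f := by
  refine ⟨geometrically_iff_of_isClosedUnderIsomorphisms.mpr fun K _ y => ?_⟩
  have : IrreducibleSpace ↥(pullback f y) :=
    GeometricallyIrreducible.geometrically_irreducibleSpace _ _ _ (.of_hasPullback _ _)
  infer_instance

/-- A fibre product over a field of geometrically integral schemes locally of finite type is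
geometrically integral. -/
theorem geometricallyIntegral_pullback_snd_comp {k : Type u} [Field k] {X Y : Scheme.{u}}
    (f : X ⟶ Spec (CommRingCat.of k)) (g : Y ⟶ Spec (CommRingCat.of k))
    [GeometricallyIntegral f] [GeometricallyIntegral g] [LocallyOfFiniteType g] :
    GeometricallyIntegral (pullback.snd f g ≫ g) := by
  have : ObjectProperty.IsClosedUnderIsomorphisms (@IsIntegral.{u}) :=
    ⟨fun e (h : IsIntegral _) => IsIntegral.of_isIso (h := h) e.hom⟩
  refine ⟨geometrically_iff_of_isClosedUnderIsomorphisms.mpr fun K _ y => ?_⟩
  have : IsIntegral (pullback g y) :=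
    GeometricallyIntegral.geometrically_isIntegral _ _ _ (.of_hasPullback _ _)
  have : IsLocallyNoetherian (pullback g y) :=
    LocallyOfFiniteType.isLocallyNoetherian (pullback.snd g y)
  have : IsIntegral (pullback f (pullback.fst g y ≫ g)) := inferInstance
  let e : pullback (pullback.snd f g ≫ g) y ≅ pullback f (pullback.fst g y ≫ g) :=
    (pullbackRightPullbackFstIso g y (pullback.snd f g)).symm ≪≫
      pullbackLeftPullbackSndIso f g (pullback.fst g y)
  exact IsIntegral.of_isIso e.inv

/-- Smoothness over an affine base from affine charts which are formally smooth and finitely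
presented. -/
theorem smooth_of_charts {k : Type u} [CommRing k] {J : Scheme.{u}}
    (p : J ⟶ Spec (CommRingCat.of k)) {ι : Type*} (A : ι → Type u) [∀ i, CommRing (A i)]
    [∀ i, Algebra k (A i)] [∀ i, Algebra.FormallySmooth k (A i)]
    [∀ i, Algebra.FinitePresentation k (A i)]
    (j : ∀ i, Spec (CommRingCat.of (A i)) ⟶ J) [∀ i, IsOpenImmersion (j i)]
    (hj : ∀ i, j i ≫ p = Spec.map (CommRingCat.ofHom (algebraMap k (A i))))
    (hcov : ∀ x, ∃ i, x ∈ Set.range (j i)) : Smooth p := by
  choose i hi using hcov
  let 𝒰 : J.OpenCover :=
    { I₀ := J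
      X := fun x => Spec (CommRingCat.of (A (i x)))
      f := fun x => j (i x)
      mem₀ := by
        rw [Scheme.presieve₀_mem_precoverage_iff]
        exact ⟨fun x => ⟨x, hi x⟩, fun x => inferInstance⟩ }
  refine IsZariskiLocalAtSource.of_openCover (P := @Smooth) 𝒰 fun x => ?_
  change Smooth (j (i x) ≫ p)
  rw [hj, HasRingHomProperty.Spec_iff (P := @Smooth)]
  simp only [CommRingCat.hom_ofHom]
  rw [RingHom.smooth_algebraMap]
  exact ⟨inferInstance, inferInstance⟩

end Fermat.Agent.Jacobian
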