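import Fermat.Agent.Jacobian.Bridge.AlgEquivZero
import Fermat.Agent.Jacobian.Properties.Generic

/-!
# Classes algebraically equivalent to zero form a subgroup

Products use the fibre product of the two parameter schemes, inverses the same parameter scheme;
the notion is stable under pullback along a morphism over the base field.
-/

set_option autoImplicit false

noncomputable section

universe u

open CategoryTheory CategoryTheory.Limits AlgebraicGeometry AlgebraicGeometry.RelPicard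
  NeronModelInfra

namespace Fermat.Agent.Jacobian

variable {k : Type u} [Field k] {A : Scheme.{u}} {a : A ⟶ Spec (CommRingCat.of k)}

theorem picAlgEquivZero_one : PicAlgEquivZero a 1 :=
  ⟨Spec (CommRingCat.of k), 𝟙 _, inferInstance, geometricallyIntegral_id_Spec k, 1,
    ⟨𝟙 _, Category.comp_id _⟩, ⟨𝟙 _, Category.comp_id _⟩, map_one _, by rw [map_one, map_one]⟩

theorem PicAlgEquivZero.inv {ξ : Pic A} (hξ : PicAlgEquivZero a ξ) : PicAlgEquivZero a ξ⁻¹ := by
  obtain ⟨T, h, hft, hgi, η, t₀, t₁, e₀, e₁⟩ := hξ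
  exact ⟨T, h, hft, hgi, η⁻¹, t₀, t₁, by rw [map_inv, e₀, inv_one],
    by rw [map_inv, e₁, map_inv]⟩

theorem PicAlgEquivZero.mul {ξ ξ' : Pic A} (hξ : PicAlgEquivZero a ξ)
    (hξ' : PicAlgEquivZero a ξ') : PicAlgEquivZero a (ξ * ξ') := by
  obtain ⟨T, h, hft, hgi, η, t₀, t₁, e₀, e₁⟩ := hξ
  obtain ⟨T', h', hft', hgi', η', t₀', t₁', e₀', e₁'⟩ := hξ'
  let hP : pullback h h' ⟶ Spec (CommRingCat.of k) := pullback.snd h h' ≫ h'
  let p₁ : SchemeHomOver hP h := ⟨pullback.fst h h', pullback.condition⟩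
  let p₂ : SchemeHomOver hP h' := ⟨pullback.snd h h', rfl⟩
  let pair (t : SchemeHomOver (𝟙 (Spec (CommRingCat.of k))) h)
      (t' : SchemeHomOver (𝟙 (Spec (CommRingCat.of k))) h') :
      SchemeHomOver (𝟙 (Spec (CommRingCat.of k))) hP :=
    ⟨pullback.lift t.1 t'.1 (t.2.trans t'.2.symm), by
      show _ ≫ pullback.snd h h' ≫ h' = _
      rw [pullback.lift_snd_assoc, t'.2]⟩
  have h₁ : ∀ t t', postComp p₁ (pair t t') = t := fun t t' => Subtype.ext (pullback.lift_fst _ _ _)
  have h₂ : ∀ t t', postComp p₂ (pair t t') = t' := fun t t' => Subtype.ext (pullback.lift_snd _ _ _)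
  refine ⟨pullback h h', hP, inferInstance, geometricallyIntegral_pullback_snd_comp h h',
    Pic.comap (baseChangeSnd a p₁) η * Pic.comap (baseChangeSnd a p₂) η',
    pair t₀ t₀', pair t₁ t₁', ?_, ?_⟩
  · rw [map_mul, ← Pic.comap_comp, ← Pic.comap_comp, baseChangeSnd_comp, baseChangeSnd_comp,
      h₁, h₂, e₀, e₀', mul_one]
  · rw [map_mul, ← Pic.comap_comp, ← Pic.comap_comp, baseChangeSnd_comp, baseChangeSnd_comp,
      h₁, h₂, e₁, e₁', ← map_mul]

theorem PicAlgEquivZero.div {ξ ξ' : Pic A} (hξ : PicAlgEquivZero a ξ)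
    (hξ' : PicAlgEquivZero a ξ') : PicAlgEquivZero a (ξ / ξ') := by
  rw [div_eq_mul_inv]
  exact hξ.mul hξ'.inv

/-- The subgroup of classes algebraically equivalent to zero. -/
def algEquivZeroSubgroup (a : A ⟶ Spec (CommRingCat.of k)) : Subgroup (Pic A) where
  carrier := {ξ | PicAlgEquivZero a ξ}
  one_mem' := picAlgEquivZero_one
  mul_mem' := PicAlgEquivZero.mul
  inv_mem' := PicAlgEquivZero.inv

@[simp] theorem mem_algEquivZeroSubgroup (ξ : Pic A) :
    ξ ∈ algEquivZeroSubgroup a ↔ PicAlgEquivZero a ξ := Iff.rfl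

theorem PicAlgEquivZero.comap {A' : Scheme.{u}} {a' : A' ⟶ Spec (CommRingCat.of k)} (e : A' ⟶ A)
    (he : e ≫ a = a') {ξ : Pic A} (hξ : PicAlgEquivZero a ξ) :
    PicAlgEquivZero a' (Pic.comap e ξ) := by
  obtain ⟨T, h, hft, hgi, η, t₀, t₁, e₀, e₁⟩ := hξ
  let eT : pullback a' h ⟶ pullback a h :=
    pullback.map a' h a h e (𝟙 T) (𝟙 _) (by rw [Category.comp_id, he]) (by simp)
  let e1 : pullback a' (𝟙 (Spec (CommRingCat.of k))) ⟶ pullback a (𝟙 (Spec (CommRingCat.of k))) :=
    pullback.map a' (𝟙 _) a (𝟙 _) e (𝟙 _) (𝟙 _) (by rw [Category.comp_id, he]) (by simp)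
  have hsq : ∀ tt : SchemeHomOver (𝟙 (Spec (CommRingCat.of k))) h,
      baseChangeSnd a' tt ≫ eT = e1 ≫ baseChangeSnd a tt := by
    intro tt
    apply pullback.hom_ext <;>
      simp only [eT, e1, baseChangeSnd, Category.assoc, pullback.lift_fst, pullback.lift_snd,
        pullback.lift_fst_assoc, pullback.lift_snd_assoc, Category.comp_id]
  refine ⟨T, h, hft, hgi, Pic.comap eT η, t₀, t₁, ?_, ?_⟩
  · rw [← Pic.comap_comp, hsq, Pic.comap_comp, e₀, map_one]
  · rw [← Pic.comap_comp, hsq, Pic.comap_comp, e₁, ← Pic.comap_comp, ← Pic.comap_comp]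
    refine congrArg (fun m => Pic.comap m ξ) ?_
    exact pullback.lift_fst _ _ _

/-- Two fibres over rational points of a family parametrised by a geometrically integral scheme
of finite type differ by a class algebraically equivalent to zero. -/
theorem picAlgEquivZero_of_family {T : Scheme.{u}} (h : T ⟶ Spec (CommRingCat.of k))
    [LocallyOfFiniteType h] [GeometricallyIntegral h] (η : Pic (pullback a h))
    (t₀ t₁ : SchemeHomOver (𝟙 (Spec (CommRingCat.of k))) h) {ξ₀ ξ₁ : Pic A}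
    (h₀ : Pic.comap (baseChangeSnd a t₀) η =
      Pic.comap (pullback.fst a (𝟙 (Spec (CommRingCat.of k)))) ξ₀)
    (h₁ : Pic.comap (baseChangeSnd a t₁) η =
      Pic.comap (pullback.fst a (𝟙 (Spec (CommRingCat.of k)))) ξ₁) :
    PicAlgEquivZero a (ξ₁ / ξ₀) := by
  refine ⟨T, h, ‹_›, ‹_›, η / Pic.comap (pullback.fst a h) ξ₀, t₀, t₁, ?_, ?_⟩ <;>
    rw [map_div, ← Pic.comap_comp,
      show baseChangeSnd a _ ≫ pullback.fst a h =
        pullback.fst a (𝟙 (Spec (CommRingCat.of k))) from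
        (pullback.lift_fst _ _ _).trans (Category.comp_id _)]
  · rw [h₀, div_self']
  · rw [h₁, map_div]

end Fermat.Agent.Jacobian
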