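import Fermat.Agent.Jacobian.Properties.Generic

/-!
# Self-products of a scheme over a field

The iterated fibre powers of a proper geometrically integral scheme over a field are proper and
geometrically integral.
-/

set_option autoImplicit false

noncomputable section

universe u

open CategoryTheory CategoryTheory.Limits AlgebraicGeometry

namespace Fermat.Agent.Jacobian

variable {k : Type u} [Field k] {C : Scheme.{u}} (c : C ⟶ Spec (CommRingCat.of k))

/-- The `n`-fold fibre power, as an object over the base. -/
def powOver : ℕ → Over (Spec (CommRingCat.of k))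
  | 0 => Over.mk (𝟙 _)
  | n + 1 => Over.mk (pullback.snd c (powOver n).hom ≫ (powOver n).hom)

/-- The structure map of the `n`-fold fibre power. -/
abbrev powHom (n : ℕ) : (powOver c n).left ⟶ Spec (CommRingCat.of k) := (powOver c n).hom

/-- The first coordinate on the `(n+1)`-st power. -/
def powHead (n : ℕ) : (powOver c (n + 1)).left ⟶ C := pullback.fst c (powHom c n)

/-- Forgetting the first coordinate on the `(n+1)`-st power. -/
def powTail (n : ℕ) : (powOver c (n + 1)).left ⟶ (powOver c n).left := pullback.snd c (powHom c n)

theorem powHead_comp (n : ℕ) : powHead c n ≫ c = powHom c (n + 1) := pullback.condition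

theorem powTail_comp (n : ℕ) : powTail c n ≫ powHom c n = powHom c (n + 1) := rfl

/-- Points of the power from a list of points of the curve. -/
def powLift {T : Scheme.{u}} (t : T ⟶ Spec (CommRingCat.of k)) :
    ∀ (n : ℕ) (_ : Fin n → { g : T ⟶ C // g ≫ c = t }),
      { g : T ⟶ (powOver c n).left // g ≫ powHom c n = t }
  | 0, _ => ⟨t, Category.comp_id t⟩
  | n + 1, f =>
    let g := powLift t n fun i => f i.succ
    ⟨pullback.lift (f 0).1 g.1 ((f 0).2.trans g.2.symm), by
      show pullback.lift _ _ _ ≫ pullback.snd c (powHom c n) ≫ powHom c n = t
      rw [pullback.lift_snd_assoc, g.2]⟩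

theorem powLift_head {T : Scheme.{u}} (t : T ⟶ Spec (CommRingCat.of k)) (n : ℕ)
    (f : Fin (n + 1) → { g : T ⟶ C // g ≫ c = t }) :
    (powLift c t (n + 1) f).1 ≫ powHead c n = (f 0).1 :=
  pullback.lift_fst _ _ _

theorem powLift_tail {T : Scheme.{u}} (t : T ⟶ Spec (CommRingCat.of k)) (n : ℕ)
    (f : Fin (n + 1) → { g : T ⟶ C // g ≫ c = t }) :
    (powLift c t (n + 1) f).1 ≫ powTail c n = (powLift c t n fun i => f i.succ).1 :=
  pullback.lift_snd _ _ _

theorem isProper_powHom [IsProper c] (n : ℕ) : IsProper (powHom c n) := by
  induction n with
  | zero => exact inferInstanceAs (IsProper (𝟙 (Spec (CommRingCat.of k))))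
  | succ n ih => exact inferInstanceAs (IsProper (pullback.snd c (powHom c n) ≫ powHom c n))

theorem geometricallyIntegral_powHom [IsProper c] [GeometricallyIntegral c] (n : ℕ) :
    GeometricallyIntegral (powHom c n) := by
  induction n with
  | zero =>
    refine ⟨fun K _ y Z fst snd h => ?_⟩
    have : IsIso (powHom c 0) := inferInstanceAs (IsIso (𝟙 (Spec (CommRingCat.of k))))
    have : IsIso snd := h.isIso_snd_of_isIso
    exact IsIntegral.of_isIso (inv snd)
  | succ n ih =>
    have := isProper_powHom c n
    exact geometricallyIntegral_pullback_snd_comp c (powHom c n)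

theorem geometricallyConnected_powHom [IsProper c] [GeometricallyIntegral c] (n : ℕ) :
    GeometricallyConnected (powHom c n) :=
  have := geometricallyIntegral_powHom c n
  geometricallyConnected_of_geometricallyIrreducible (powHom c n)

/-- A separated scheme covered by a self-product of a proper geometrically integral scheme is
proper and geometrically connected. -/
theorem isProper_geometricallyConnected_of_pow [IsProper c] [GeometricallyIntegral c]
    {J : Scheme.{u}} (p : J ⟶ Spec (CommRingCat.of k)) [IsSeparated p] [LocallyOfFiniteType p]
    (n : ℕ) (g : (powOver c n).left ⟶ J) (hg : g ≫ p = powHom c n) [Surjective g] :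
    IsProper p ∧ GeometricallyConnected p := by
  have : UniversallyClosed (g ≫ p) := by
    have := isProper_powHom c n
    rw [hg]; infer_instance
  have : GeometricallyConnected (g ≫ p) := by
    rw [hg]; exact geometricallyConnected_powHom c n
  exact ⟨isProper_of_surjective g p, geometricallyConnected_of_surjective g p⟩

end Fermat.Agent.Jacobian
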