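import Fermat.Agent.Jacobian.Properties.PointDivisor
import Fermat.Agent.Jacobian.Curve.GeomIntegral
import Fermat.Agent.Jacobian.Bridge.Rigidified
import Fermat.Agent.Jacobian.Represent.Defs
import Mathlib.AlgebraicGeometry.Morphisms.Separated

/-!
# The diagonal divisor and the Abel–Jacobi class

On `C ×ₖ C` the diagonal is a divisor; its restriction along an `R`-point lying in a chart is the
divisor of that point.
-/

set_option autoImplicit false

noncomputable section

universe u

open CategoryTheory CategoryTheory.Limits AlgebraicGeometry AlgebraicGeometry.RelPicard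
  NeronModelInfra TensorProduct

namespace Fermat.Agent.Jacobian

variable {k : Type u} [Field k] {C : Scheme.{u}} {c : C ⟶ Spec (CommRingCat.of k)}

variable (c) in
/-- The diagonal. -/
abbrev diagSec : C ⟶ pullback c c := pullback.lift (𝟙 C) (𝟙 C) rfl

variable (c) in
lemma fromSpec_comp {U : C.Opens} (hU : IsAffineOpen U) :
    hU.fromSpec ≫ c = specAlg (k := k) (Fun c U) := by
  rw [← IsAffineOpen.SpecMap_appLE_fromSpec c (isAffineOpen_top _) hU le_top,
    IsAffineOpen.fromSpec_top, Scheme.isoSpec_Spec_inv, ← Spec.map_comp]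
  rfl

variable (c) in
/-- `Spec Γ(C, U) → C`. -/
def tautMor {U : C.Opens} (hU : IsAffineOpen U) : Spec (CommRingCat.of (Fun c U)) ⟶ C :=
  hU.fromSpec

instance isOpenImmersion_tautMor {U : C.Opens} (hU : IsAffineOpen U) :
    IsOpenImmersion (tautMor c hU) :=
  hU.isOpenImmersion_fromSpec

lemma opensRange_tautMor {U : C.Opens} (hU : IsAffineOpen U) :
    (tautMor c hU).opensRange = U :=
  hU.opensRange_fromSpec

variable (c) in
/-- The tautological point of an affine open, over its ring of functions. -/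
def tautPoint {U : C.Opens} (hU : IsAffineOpen U) :
    SchemeHomOver (specAlg (k := k) (Fun c U)) c :=
  ⟨tautMor c hU, fromSpec_comp c hU⟩

/-- A point lying in an affine open comes from the tautological one. -/
lemma point_eq_comp_tautPoint {R : Type u} [CommRing R] [Algebra k R]
    (y : SchemeHomOver (specAlg (k := k) R) c) {U : C.Opens} (hU : IsAffineOpen U)
    (hy : y.1 ⁻¹ᵁ U = ⊤) :
    y.1 = Spec.map (CommRingCat.ofHom (pointHom y hy).toRingHom) ≫ (tautPoint c hU).1 := by
  have h := IsAffineOpen.SpecMap_appLE_fromSpec y.1 hU (isAffineOpen_top _) hy.ge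
  rw [IsAffineOpen.fromSpec_top, Scheme.isoSpec_Spec_inv] at h
  have e : CommRingCat.ofHom (pointHom y hy).toRingHom =
      y.1.appLE U ⊤ hy.ge ≫ (Scheme.ΓSpecIso (CommRingCat.of R)).hom := rfl
  erw [e, Spec.map_comp, Category.assoc, h, ← Spec.map_comp_assoc, Iso.inv_hom_id, Spec.map_id,
    Category.id_comp]

lemma baseChangeSnd_fst {T T' : Scheme.{u}} {t : T ⟶ Spec (CommRingCat.of k)}
    {t' : T' ⟶ Spec (CommRingCat.of k)} (s : SchemeHomOver t' t) :
    baseChangeSnd c s ≫ pullback.fst c t = pullback.fst c t' :=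
  (pullback.lift_fst _ _ _).trans (Category.comp_id _)

lemma baseChangeSnd_snd {T T' : Scheme.{u}} {t : T ⟶ Spec (CommRingCat.of k)}
    {t' : T' ⟶ Spec (CommRingCat.of k)} (s : SchemeHomOver t' t) :
    baseChangeSnd c s ≫ pullback.snd c t = pullback.snd c t' ≫ s.1 :=
  pullback.lift_snd _ _ _

section Chart

variable {U : C.Opens} (hU : IsAffineOpen U)

/-- `C_R → C ×ₖ C` for `R` the functions on an affine open. -/
abbrev diagChart : CR c (Fun c U) ⟶ pullback c c := baseChangeSnd c (tautPoint c hU)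

lemma isPullback_baseChangeSnd {T T' : Scheme.{u}} {t : T ⟶ Spec (CommRingCat.of k)}
    {t' : T' ⟶ Spec (CommRingCat.of k)} (s : SchemeHomOver t' t) :
    IsPullback (baseChangeSnd c s) (pullback.snd c t') (pullback.snd c t) s.1 := by
  have h1 := baseChangeSnd_fst (c := c) s
  have h2 := baseChangeSnd_snd (c := c) s
  refine IsPullback.of_right ?_ h2 (IsPullback.of_hasPullback c t)
  rw [h1, s.2]
  exact IsPullback.of_hasPullback c t'

instance isOpenImmersion_diagChart : IsOpenImmersion (diagChart (c := c) hU) :=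
  MorphismProperty.of_isPullback (P := @IsOpenImmersion)
    (isPullback_baseChangeSnd (c := c) (tautPoint c hU)).flip
    (isOpenImmersion_tautMor hU)

lemma opensRange_diagChart :
    (diagChart (c := c) hU).opensRange = pullback.snd c c ⁻¹ᵁ U := by
  haveI : IsOpenImmersion (tautPoint c hU).1 := isOpenImmersion_tautMor hU
  have h := IsOpenImmersion.image_preimage_eq_preimage_image_of_isPullback
    (isPullback_baseChangeSnd (c := c) (tautPoint c hU)).flip ⊤
  simp only [Scheme.Hom.preimage_top, Scheme.Hom.image_top_eq_opensRange] at h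
  rw [h]
  exact congrArg (pullback.snd c c ⁻¹ᵁ ·) hU.opensRange_fromSpec

lemma ptSec_diagChart :
    ptSec (tautPoint c hU) ≫ diagChart hU = tautMor c hU ≫ diagSec c := by
  apply pullback.hom_ext
  · rw [Category.assoc, Category.assoc, baseChangeSnd_fst, pullback.lift_fst, pullback.lift_fst,
      Category.comp_id]
    rfl
  · rw [Category.assoc, Category.assoc, baseChangeSnd_snd, pullback.lift_snd, Category.comp_id,
      ptSec_prR_assoc]
    rfl

lemma preimage_diagSec_opensRange :
    diagSec c ⁻¹ᵁ (diagChart (c := c) hU).opensRange ≤ (tautMor c hU).opensRange := by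
  rw [opensRange_diagChart, opensRange_tautMor, ← Scheme.Hom.comp_preimage,
    pullback.lift_snd, Scheme.Hom.id_preimage]

end Chart

lemma exists_isSectEqn_diagSec (ch : CurveChart c) (H : FibresLocallyPrincipal k (Fun c ch.U₀))
    (z : (pullback c c : Scheme.{u})) (hz : pullback.snd c c z ∈ ch.U₀) :
    ∃ (V : (pullback c c).Opens) (f : Γ(pullback c c, V)), z ∈ V ∧
      IsSectEqn (diagSec c) V f := by
  have hy : (tautPoint c ch.affine₀).1 ⁻¹ᵁ ch.U₀ = ⊤ := ch.affine₀.fromSpec_preimage_self
  set j := diagChart (c := c) ch.affine₀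
  obtain ⟨w, rfl⟩ : z ∈ j.opensRange := by
    rw [opensRange_diagChart]; exact hz
  set D := ch.pointDivisor (pointHom (tautPoint c ch.affine₀) hy) H
  have hV : j ''ᵁ D.V w ≤ j.opensRange := fun x hx => by
    obtain ⟨v, -, rfl⟩ := hx
    exact ⟨v, rfl⟩
  have he : j ⁻¹ᵁ j ''ᵁ D.V w = D.V w := j.preimage_image_eq _
  refine ⟨j ''ᵁ D.V w, pbInv j hV (res he.le (D.f w)), ⟨w, D.mem w, rfl⟩,
    (isSectEqn_pb_iff (ptSec_diagChart (c := c) ch.affine₀)
      (preimage_diagSec_opensRange (c := c) ch.affine₀) hV _).1 ?_⟩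
  rw [pb_pbInv, res_refl]
  exact (ch.isSectDiv_pointDivisor _ hy H w).restrict he.le

variable [SmoothOfRelativeDimension 1 c]

theorem exists_isSectDiv_diagSec (ch : CurveChart c) :
    ∃ D : EffDiv (pullback c c), IsSectDiv (diagSec c) D := by
  refine exists_isSectDiv fun z => ?_
  rcases (ch.cover.ge (Set.mem_univ _) : pullback.snd c c z ∈ ch.U₀ ⊔ ch.U₁) with h | h
  · exact exists_isSectEqn_diagSec ch (fibresLocallyPrincipal_fun c ch.affine₀) z h
  · exact exists_isSectEqn_diagSec ch.symm (fibresLocallyPrincipal_fun c ch.affine₁) z h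

namespace CurveChart

variable (ch : CurveChart c)

/-- The diagonal as an effective divisor on `C ×ₖ C`. -/
def diagDiv : EffDiv (pullback c c) := (exists_isSectDiv_diagSec ch).choose

theorem isSectDiv_diagDiv : IsSectDiv (diagSec c) ch.diagDiv :=
  (exists_isSectDiv_diagSec ch).choose_spec

/-- The class `O(Δ)`. -/
def diagCls : Pic (pullback c c) := ch.diagDiv.cls

theorem diagCls_eq (ch' : CurveChart c) : ch'.diagCls = ch.diagCls :=
  ch.isSectDiv_diagDiv.cls_eq ch'.isSectDiv_diagDiv

variable {R : Type u} [CommRing R] [Algebra k R]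

/-- The diagonal restricted along a point of the first chart is the divisor of the point. -/
theorem comap_diagCls (y : SchemeHomOver (specAlg (k := k) R) c) (hy : y.1 ⁻¹ᵁ ch.U₀ = ⊤)
    (H : FibresLocallyPrincipal k (Fun c ch.U₀)) :
    Pic.comap (baseChangeSnd c y) ch.diagCls = (ch.pointDivisor (pointHom y hy) H).cls := by
  have hy₀ : (tautPoint c ch.affine₀).1 ⁻¹ᵁ ch.U₀ = ⊤ := ch.affine₀.fromSpec_preimage_self
  set φ := pointHom y hy with hφ
  have hp : φ = φ.comp (pointHom (tautPoint c ch.affine₀) hy₀) :=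
    pointHom_comp _ hy₀ φ y (point_eq_comp_tautPoint y ch.affine₀ hy) hy
  have he : baseChangeSnd c y = crMap c (Fun c ch.U₀) R φ ≫ diagChart ch.affine₀ := by
    apply pullback.hom_ext
    · rw [Category.assoc, baseChangeSnd_fst, baseChangeSnd_fst, crMap_prC]
    · rw [Category.assoc, baseChangeSnd_snd, baseChangeSnd_snd, crMap_prR_assoc]
      exact congrArg (pullback.snd c _ ≫ ·) (point_eq_comp_tautPoint y ch.affine₀ hy)
  rw [he, Pic.comap_comp, diagCls,
    ← IsSectDiv.cls_eq_comap (ptSec_diagChart (c := c) ch.affine₀)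
      (preimage_diagSec_opensRange (c := c) ch.affine₀) ch.isSectDiv_diagDiv
      (ch.isSectDiv_pointDivisor _ hy₀ H)]
  conv_rhs => rw [hp]
  exact (ch.cls_pointDivisor_comp _ φ H).symm

end CurveChart

section Rigidify

variable (c) (ε : SchemeHomOver (𝟙 (Spec (CommRingCat.of k))) c) {T : Scheme.{u}}
  (t : T ⟶ Spec (CommRingCat.of k))

omit [SmoothOfRelativeDimension 1 c] in
/-- Normalise a class along the base section. -/
def rigidify (ξ : Pic (pullback c t)) : RigPic c ε t :=
  ⟨ξ * (Pic.comap (pullback.snd c t) (Pic.comap (rigSection c t ε) ξ))⁻¹, by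
    have h : rigSection c t ε ≫ pullback.snd c t = 𝟙 T := pullback.lift_snd _ _ _
    rw [map_mul, map_inv, ← Pic.comap_comp (rigSection c t ε) (pullback.snd c t), h, Pic.comap_id,
      mul_inv_cancel]⟩

end Rigidify

/-- On a scheme with a point lying in no proper open, every class is trivial. -/
theorem Pic.eq_one_of_forall_eq_top {X : Scheme.{u}} (x₀ : X)
    (h : ∀ U : X.Opens, x₀ ∈ U → U = ⊤) (ξ : Pic X) : ξ = 1 := by
  obtain ⟨L, rfl⟩ := Pic.mk_surjective ξ
  have hx : ∀ {W : X.Opens}, W ≤ L.U x₀ := fun {W} => le_top.trans (h _ (L.mem x₀)).ge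
  refine Pic.mk_eq_mk.mpr ⟨⟨L.U, L.mem, fun _ => le_rfl, fun _ => le_top,
    fun x => (L.isUnit_tr x₀ x hx le_rfl).unit, fun x y W hx' hy' => ?_⟩⟩
  simp only [IsUnit.unit_spec, LineCocycle.res_tr]
  rw [LineCocycle.tr_one, one_mul, L.tr_mul_tr]

/-- Line bundles over a field are trivial. -/
theorem Pic.eq_one_of_field {K : Type u} [Field K] (ξ : Pic (Spec (CommRingCat.of K))) : ξ = 1 :=
  Pic.eq_one_of_forall_eq_top (⊥ : PrimeSpectrum K)
    (fun U hU => eq_top_iff.2 fun z _ => by
      rwa [Subsingleton.elim z (⊥ : PrimeSpectrum K)]) ξ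

namespace EpsChart

variable {ε : SchemeHomOver (𝟙 (Spec (CommRingCat.of k))) c} (E : EpsChart c ε)

/-- The Abel–Jacobi class: the rigidified `O(Δ - C × ε)`. -/
def ajClass : RigPic c ε c :=
  rigidify c ε c (E.toCurveChart.diagCls * (Pic.comap (pullback.fst c c) E.Oeps)⁻¹)

/-- The restriction of the Abel–Jacobi class to a field point is `O(P) ⊗ O(ε)⁻¹`. -/
theorem comap_ajClass {K : Type u} [Field K] [Algebra k K]
    (y : SchemeHomOver (specAlg (k := k) K) c) :
    Pic.comap (baseChangeSnd c y) E.ajClass.1 =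
      Pic.comap (baseChangeSnd c y) E.toCurveChart.diagCls *
        (Pic.comap (prC c K) E.Oeps)⁻¹ := by
  have h1 : baseChangeSnd c y ≫ pullback.snd c c = prR c K ≫ y.1 := pullback.lift_snd _ _ _
  have h2 : baseChangeSnd c y ≫ pullback.fst c c = prC c K := baseChangeSnd_fst y
  unfold ajClass rigidify
  rw [map_mul, map_inv, ← Pic.comap_comp (baseChangeSnd c y) (pullback.snd c c), h1,
    Pic.comap_comp, Pic.eq_one_of_field (Pic.comap y.1 _), map_one, inv_one, mul_one, map_mul,
    map_inv, ← Pic.comap_comp (baseChangeSnd c y) (pullback.fst c c), h2]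

/-- At a point of the first chart. -/
theorem comap_ajClass_of_mem₀ {K : Type u} [Field K] [Algebra k K]
    (y : SchemeHomOver (specAlg (k := k) K) c) (hy : y.1 ⁻¹ᵁ E.U₀ = ⊤)
    (H : FibresLocallyPrincipal k (Fun c E.U₀)) :
    Pic.comap (baseChangeSnd c y) E.ajClass.1 =
      (E.toCurveChart.pointDivisor (pointHom y hy) H).cls *
        (Pic.comap (prC c K) E.Oeps)⁻¹ := by
  rw [E.comap_ajClass, E.toCurveChart.comap_diagCls y hy H]

/-- At a point of the second chart. -/
theorem comap_ajClass_of_mem₁ {K : Type u} [Field K] [Algebra k K]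
    (y : SchemeHomOver (specAlg (k := k) K) c) (hy : y.1 ⁻¹ᵁ E.U₁ = ⊤)
    (H : FibresLocallyPrincipal k (Fun c E.U₁)) :
    Pic.comap (baseChangeSnd c y) E.ajClass.1 =
      (E.toCurveChart.symm.pointDivisor (pointHom y hy) H).cls *
        (Pic.comap (prC c K) E.Oeps)⁻¹ := by
  rw [E.comap_ajClass, ← E.toCurveChart.diagCls_eq E.toCurveChart.symm,
    E.toCurveChart.symm.comap_diagCls y hy H]

end EpsChart

omit [SmoothOfRelativeDimension 1 c] in
/-- A field point lies entirely in one of the charts. -/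
theorem CurveChart.point_mem_or (ch : CurveChart c) {K : Type u} [Field K] [Algebra k K]
    (y : SchemeHomOver (specAlg (k := k) K) c) : y.1 ⁻¹ᵁ ch.U₀ = ⊤ ∨ y.1 ⁻¹ᵁ ch.U₁ = ⊤ := by
  let z : PrimeSpectrum K := ⊥
  have h : ∀ V : C.Opens, y.1 z ∈ V → y.1 ⁻¹ᵁ V = ⊤ := fun V hV => eq_top_iff.2 fun w _ => by
    rw [Subsingleton.elim w z]
    exact hV
  rcases (ch.cover.ge (Set.mem_univ _) : y.1 z ∈ ch.U₀ ⊔ ch.U₁) with h' | h'
  · exact Or.inl (h _ h')
  · exact Or.inr (h _ h')

end Fermat.Agent.Jacobian
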