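import Fermat.Agent.Jacobian.Properties.ChiConstant
import Fermat.Agent.Jacobian.Properties.AlgEquivGroup
import Mathlib.AlgebraicGeometry.AlgClosed.Basic

/-!
# Classes algebraically equivalent to zero have the Euler characteristic of the trivial class
-/

set_option autoImplicit false

noncomputable section

universe u

open CategoryTheory CategoryTheory.Limits AlgebraicGeometry AlgebraicGeometry.RelPicard
  NeronModelInfra

namespace Fermat.Agent.Jacobian

variable {k : Type u} [Field k] {C T : Scheme.{u}} {c : C ⟶ Spec (CommRingCat.of k)}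
  {h : T ⟶ Spec (CommRingCat.of k)}

/-- The fibre of `C × T` over a rational point of `T`. -/
def fibreIncl (c : C ⟶ Spec (CommRingCat.of k))
    (t : SchemeHomOver (𝟙 (Spec (CommRingCat.of k))) h) : C ⟶ pullback c h :=
  pullback.lift (𝟙 C) (c ≫ t.1) (by rw [Category.id_comp, Category.assoc, t.2, Category.comp_id])

theorem baseChangeSnd_eq_fst_fibreIncl (t : SchemeHomOver (𝟙 (Spec (CommRingCat.of k))) h) :
    baseChangeSnd c t = pullback.fst c (𝟙 _) ≫ fibreIncl c t := by
  apply pullback.hom_ext
  · simp only [baseChangeSnd, fibreIncl, pullback.map, pullback.lift_fst, Category.assoc]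
  · simp only [baseChangeSnd, fibreIncl, pullback.lift_snd, Category.assoc]
    rw [pullback.condition_assoc, Category.id_comp]

theorem comap_fst_id_injective :
    Function.Injective (Pic.comap (pullback.fst c (𝟙 (Spec (CommRingCat.of k))))) := by
  intro ξ ξ' e
  have h' := congrArg (Pic.comap (inv (pullback.fst c (𝟙 (Spec (CommRingCat.of k)))))) e
  rwa [← Pic.comap_comp, ← Pic.comap_comp, IsIso.inv_hom_id, Pic.comap_id, Pic.comap_id] at h'

/-- Euler characteristics agree at rational points of one connected affine open. -/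
theorem chi_fibre_eq_of_affine (D : CurveChart c) (M : LineCocycle (pullback c h)) {V : T.Opens}
    (hV : IsAffineOpen V) (hconn : _root_.IsPreconnected (V : Set T))
    (t t' : SchemeHomOver (𝟙 (Spec (CommRingCat.of k))) h)
    (ht : Set.range t.1 ⊆ (V : Set T)) (ht' : Set.range t'.1 ⊆ (V : Set T)) :
    (D.cech (M.comap (fibreIncl c t))).chi = (D.cech (M.comap (fibreIncl c t'))).chi := by
  let _a : Algebra k Γ(T, V) := (Spec.preimage (hV.fromSpec ≫ h)).hom.toAlgebra
  have hh : specAlg (k := k) Γ(T, V) = hV.fromSpec ≫ h := Spec.map_preimage (hV.fromSpec ≫ h)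
  have : PreconnectedSpace (Spec Γ(T, V)) := by
    refine ⟨(hV.fromSpec.isOpenEmbedding.isInducing.isPreconnected_image).mp ?_⟩
    rwa [Set.image_univ, hV.range_fromSpec]
  have : PreconnectedSpace (PrimeSpectrum Γ(T, V)) := this
  let j : CR c Γ(T, V) ⟶ pullback c h :=
    pullback.map c (specAlg (k := k) Γ(T, V)) c h (𝟙 C) hV.fromSpec (𝟙 _) (by simp)
      (by rw [Category.comp_id, hh])
  have key : ∀ s : SchemeHomOver (𝟙 (Spec (CommRingCat.of k))) h,
      Set.range s.1 ⊆ (V : Set T) →
        ∃ φ : Γ(T, V) →ₐ[k] k, pointSection c φ ≫ j = fibreIncl c s := by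
    intro s hs
    obtain ⟨g, hg⟩ := Spec.map_surjective
      (IsOpenImmersion.lift hV.fromSpec s.1 (by rw [hV.range_fromSpec]; exact hs))
    have hg' : Spec.map g ≫ hV.fromSpec = s.1 := by rw [hg, IsOpenImmersion.lift_fac]
    have hcomm : CommRingCat.ofHom (algebraMap k Γ(T, V)) ≫ g = 𝟙 (CommRingCat.of k) := by
      apply Spec.map_injective
      show Spec.map (CommRingCat.ofHom (algebraMap k Γ(T, V)) ≫ g) = _
      rw [Spec.map_comp, Spec.map_id]
      show Spec.map g ≫ specAlg (k := k) Γ(T, V) = _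
      rw [hh, reassoc_of% hg', s.2]
    let φ : Γ(T, V) →ₐ[k] k :=
      { g.hom with
        commutes' := fun z => congrArg (fun m : CommRingCat.of k ⟶ CommRingCat.of k => m.hom z) hcomm }
    refine ⟨φ, pullback.hom_ext ?_ ?_⟩
    · simp only [j, fibreIncl, pointSection, pullback.map, pullback.lift_fst, Category.assoc,
        pullback.lift_fst_assoc, Category.comp_id]
    · simp only [j, fibreIncl, pointSection, Category.assoc, pullback.lift_snd,
        pullback.lift_snd_assoc]
      exact congrArg (c ≫ ·) hg'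
  obtain ⟨φ, hφ⟩ := key t ht
  obtain ⟨ψ, hψ⟩ := key t' ht'
  have e : ∀ (s : SchemeHomOver (𝟙 (Spec (CommRingCat.of k))) h) (χ : Γ(T, V) →ₐ[k] k),
      pointSection c χ ≫ j = fibreIncl c s →
      (D.cech (M.comap (fibreIncl c s))).chi = (D.cech ((M.comap j).comap (pointSection c χ))).chi :=
    fun s χ hs => chi_eq_of_mk_eq D (by
      rw [← Pic.comap_mk, ← Pic.comap_mk, ← Pic.comap_mk, ← Pic.comap_comp, hs])
  rw [e t φ hφ, e t' ψ hψ]
  exact chi_eq_of_preconnected D (M.comap j) φ ψ

/-- Euler characteristics agree at all rational points of an irreducible parameter scheme. -/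
theorem chi_fibre_eq [IsAlgClosed k] [LocallyOfFiniteType h] [IrreducibleSpace T] (D : CurveChart c)
    (M : LineCocycle (pullback c h)) (t t' : SchemeHomOver (𝟙 (Spec (CommRingCat.of k))) h) :
    (D.cech (M.comap (fibreIncl c t))).chi = (D.cech (M.comap (fibreIncl c t'))).chi := by
  let pt : (Spec (CommRingCat.of k) : Scheme.{u}) := IsLocalRing.closedPoint k
  have hrange : ∀ (s : SchemeHomOver (𝟙 (Spec (CommRingCat.of k))) h) {V : T.Opens},
      s.1 pt ∈ V → Set.range s.1 ⊆ (V : Set T) := by
    rintro s V hs _ ⟨z, rfl⟩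
    have : Subsingleton (Spec (CommRingCat.of k)) :=
      inferInstanceAs (Subsingleton (PrimeSpectrum k))
    rwa [Subsingleton.elim z pt]
  have hpre : ∀ {V : T.Opens}, (t.1 pt ∈ V ∨ t'.1 pt ∈ V) → _root_.IsPreconnected (V : Set T) :=
    fun {V} _ => ((PreirreducibleSpace.isPreirreducible_univ (X := T)).open_subset V.isOpen
      (Set.subset_univ _)).isPreconnected
  obtain ⟨V, hV, htV, -⟩ := exists_isAffineOpen_mem_and_subset (x := t.1 pt) (U := ⊤) trivial
  obtain ⟨W, hW, htW, -⟩ := exists_isAffineOpen_mem_and_subset (x := t'.1 pt) (U := ⊤) trivial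
  have : JacobsonSpace T := LocallyOfFiniteType.jacobsonSpace h
  obtain ⟨z, hz, hzc⟩ := nonempty_inter_closedPoints
    (nonempty_preirreducible_inter V.isOpen W.isOpen ⟨_, htV⟩ ⟨_, htW⟩)
    (V.isOpen.inter W.isOpen).isLocallyClosed
  let s : SchemeHomOver (𝟙 (Spec (CommRingCat.of k))) h :=
    ⟨pointOfClosedPoint h z hzc, pointOfClosedPoint_comp h z hzc⟩
  have hs : s.1 pt = z := pointOfClosedPoint_apply h z hzc pt
  rw [chi_fibre_eq_of_affine D M hV (hpre (Or.inl htV)) t s (hrange t htV)
      (hrange s (hs.symm ▸ hz.1)),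
    chi_fibre_eq_of_affine D M hW (hpre (Or.inr htW)) s t' (hrange s (hs.symm ▸ hz.2))
      (hrange t' htW)]

/-- A class algebraically equivalent to zero has the Euler characteristic of the trivial class. -/
theorem chi_eq_one_of_picAlgEquivZero [IsAlgClosed k] (D : CurveChart c) {L : LineCocycle C}
    (hL : PicAlgEquivZero c (Pic.mk L)) :
    (D.cech L).chi = (D.cech LineCocycle.one).chi := by
  obtain ⟨T', h', hft, hgi, η, t₀, t₁, e₀, e₁⟩ := hL
  obtain ⟨M, rfl⟩ := Pic.mk_surjective η
  have : Subsingleton (Spec (CommRingCat.of k)) :=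
    inferInstanceAs (Subsingleton (PrimeSpectrum k))
  have : IsIntegral T' := GeometricallyIntegral.isIntegral_of_subsingleton h'
  rw [baseChangeSnd_eq_fst_fibreIncl, Pic.comap_comp] at e₀ e₁
  have f₀ : Pic.comap (fibreIncl c t₀) (Pic.mk M) = Pic.mk LineCocycle.one :=
    comap_fst_id_injective (e₀.trans (map_one _).symm)
  have f₁ := comap_fst_id_injective e₁
  rw [Pic.comap_mk] at f₀ f₁
  rw [← chi_eq_of_mk_eq D f₁, ← chi_eq_of_mk_eq D f₀]
  exact chi_fibre_eq D M t₁ t₀

end Fermat.Agent.Jacobian
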