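import Fermat.Agent.Jacobian.Properties.AJ
import Fermat.Agent.Jacobian.Properties.AlgEquivChi

/-!
# Fibres of the diagonal class over rational points
-/

set_option autoImplicit false

noncomputable section

universe u

open CategoryTheory CategoryTheory.Limits AlgebraicGeometry AlgebraicGeometry.RelPicard
  NeronModelInfra

namespace Fermat.Agent.Jacobian

variable {k : Type u} [Field k] {C : Scheme.{u}} {c : C ⟶ Spec (CommRingCat.of k)}

lemma specAlg_self : specAlg (k := k) k = 𝟙 (Spec (CommRingCat.of k)) := Spec.map_id _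

/-- A rational point as a `k`-valued point. -/
abbrev ratPt (t : SchemeHomOver (𝟙 (Spec (CommRingCat.of k))) c) :
    SchemeHomOver (specAlg (k := k) k) c :=
  ⟨t.1, t.2.trans specAlg_self.symm⟩

variable (c) in
/-- The inverse of `C_k ⟶ C`. -/
def crSelf : C ⟶ CR c k :=
  pullback.lift (𝟙 C) c (by rw [specAlg_self, Category.comp_id, Category.id_comp])

@[reassoc]
lemma crSelf_prC : crSelf c ≫ prC c k = 𝟙 C := pullback.lift_fst _ _ _

@[reassoc]
lemma crSelf_prR : crSelf c ≫ prR c k = c := pullback.lift_snd _ _ _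

instance isIso_crSelf : IsIso (crSelf c) := by
  refine ⟨prC c k, crSelf_prC, ?_⟩
  apply pullback.hom_ext
  · rw [Category.assoc, crSelf_prC, Category.comp_id, Category.id_comp]
  · rw [Category.assoc, crSelf_prR, Category.id_comp]
    exact (pullback.condition.trans (congrArg (prR c k ≫ ·) specAlg_self)).trans
      (Category.comp_id _)

lemma crSelf_baseChangeSnd (t : SchemeHomOver (𝟙 (Spec (CommRingCat.of k))) c) :
    crSelf c ≫ baseChangeSnd c (ratPt t) = fibreIncl c t := by
  apply pullback.hom_ext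
  · rw [Category.assoc, baseChangeSnd_fst, crSelf_prC]
    exact (pullback.lift_fst _ _ _).symm
  · rw [Category.assoc, baseChangeSnd_snd, crSelf_prR_assoc]
    exact (pullback.lift_snd _ _ _).symm

lemma ratPt_crSelf (t : SchemeHomOver (𝟙 (Spec (CommRingCat.of k))) c) :
    t.1 ≫ crSelf c = 𝟙 _ ≫ ptSec (ratPt t) := by
  apply pullback.hom_ext
  · rw [Category.assoc, crSelf_prC, Category.comp_id, Category.id_comp, ptSec_prC]
  · rw [Category.assoc, crSelf_prR, Category.id_comp, t.2, ptSec_prR]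

variable [SmoothOfRelativeDimension 1 c]

/-- A rational point is cut out by an effective divisor. -/
theorem exists_isSectDiv_ratPoint (ch : CurveChart c)
    (t : SchemeHomOver (𝟙 (Spec (CommRingCat.of k))) c) :
    ∃ E : EffDiv C, IsSectDiv t.1 E := by
  have hcart : ∀ V : (Spec (CommRingCat.of k)).Opens,
      V ≤ Scheme.Hom.opensRange (𝟙 (Spec (CommRingCat.of k))) := fun V z _ => ⟨z, rfl⟩
  have h : ∀ (ch' : CurveChart c), (ratPt t).1 ⁻¹ᵁ ch'.U₀ = ⊤ →
      ∃ E : EffDiv C, IsSectDiv t.1 E := fun ch' hy => by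
    have hD := ch'.isSectDiv_pointDivisor _ hy (fibresLocallyPrincipal_fun c ch'.affine₀)
    set D := ch'.pointDivisor (pointHom (ratPt t) hy) (fibresLocallyPrincipal_fun c ch'.affine₀)
    refine exists_isSectDiv fun x => ⟨crSelf c ⁻¹ᵁ D.V (crSelf c x), _, D.mem _,
      (isSectEqn_pb_iff (ratPt_crSelf t) (hcart _)
        (fun z _ => (crSelf c).homeomorph.surjective z) _).2 (hD (crSelf c x))⟩
  rcases ch.point_mem_or (ratPt t) with hy | hy
  · exact h ch hy
  · exact h ch.symm hy

/-- The fibre of `O(Δ)` over a rational point is the class of that point. -/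
theorem CurveChart.comap_fibreIncl_diagCls (ch : CurveChart c)
    (t : SchemeHomOver (𝟙 (Spec (CommRingCat.of k))) c) {E : EffDiv C} (hE : IsSectDiv t.1 E) :
    Pic.comap (fibreIncl c t) ch.diagCls = E.cls := by
  have h : ∀ (ch' : CurveChart c), (ratPt t).1 ⁻¹ᵁ ch'.U₀ = ⊤ →
      Pic.comap (fibreIncl c t) ch'.diagCls = E.cls := fun ch' hy => by
    rw [← crSelf_baseChangeSnd, Pic.comap_comp,
      ch'.comap_diagCls _ hy (fibresLocallyPrincipal_fun c ch'.affine₀)]
    exact ((ch'.isSectDiv_pointDivisor _ hy _).cls_eq_comap (ratPt_crSelf t)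
      (fun z _ => ⟨z, rfl⟩) hE).symm
  rcases ch.point_mem_or (ratPt t) with hy | hy
  · exact h ch hy
  · rw [← ch.diagCls_eq ch.symm]
    exact h ch.symm hy

omit [SmoothOfRelativeDimension 1 c] in
/-- `E.epsDiv` is the divisor of the base point. -/
theorem EpsChart.isSectDiv_epsDiv {ε : SchemeHomOver (𝟙 (Spec (CommRingCat.of k))) c}
    (E : EpsChart c ε) : IsSectDiv ε.1 E.epsDiv := fun x => by
  classical
  change IsSectEqn ε.1 _ (dite _ _ _)
  by_cases h : x ∈ E.U₀
  · rw [dif_pos h]
    have hbot : ε.1 ⁻¹ᵁ E.epsDiv.V x = ⊥ := eq_bot_iff.2 fun z hz => by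
      have hz' : ε.1 z ∈ E.U₀ := (le_of_eq (if_pos h) : E.epsDiv.V x ≤ E.U₀) hz
      exact E.eps_U₀.le hz'
    have : Subsingleton Γ(Spec (CommRingCat.of k), ε.1 ⁻¹ᵁ E.epsDiv.V x) := by
      rw [hbot]; infer_instance
    refine ⟨fun W hW => ?_, Subsingleton.elim _ _, fun W hW a _ => ?_⟩
    · erw [map_one]; exact one_mem _
    · erw [map_one]; exact one_dvd _
  · rw [dif_neg h]
    have hπ : IsSectEqn ε.1 E.W E.π := by
      refine GenBy.isSectEqn (U := E.W) (I := Ideal.span {E.π}) _ ⟨?_, ?_, ?_⟩ E.π_regular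
        E.affineW E.eps_W fun a => ?_
      · intro W hV hU a ha
        obtain ⟨b, rfl⟩ := Ideal.mem_span_singleton'.1 ha
        rw [map_mul]
        exact dvd_mul_left _ _
      · exact fun z hz _ => ⟨E.W, le_rfl, le_rfl, hz,
          Ideal.mem_map_of_mem _ (Ideal.mem_span_singleton_self _)⟩
      · exact fun z hz hz' => absurd hz hz'
      · rw [Ideal.mem_span_singleton]
        refine ⟨fun ⟨b, hb⟩ => ?_, E.π_gen a⟩
        rw [hb, map_mul, E.π_eps, zero_mul]
    exact hπ.restrict _

end Fermat.Agent.Jacobian
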