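import Fermat.Agent.Jacobian.Properties.AJ
import Fermat.Agent.Jacobian.Properties.DiagonalFibre
import Fermat.Agent.Jacobian.RiemannRoch.Degree
import Fermat.Agent.Jacobian.Represent.DegreeFibre

/-!
# Algebraic equivalence to zero is degree zero

Over an algebraically closed field two points of an integral curve differ by a class algebraically
equivalent to zero (the family is the diagonal), so every class of degree zero is one; conversely
the Euler characteristic is constant in families.
-/

set_option autoImplicit false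

noncomputable section

universe u

open CategoryTheory CategoryTheory.Limits AlgebraicGeometry AlgebraicGeometry.RelPicard
  NeronModelInfra

namespace Fermat.Agent.Jacobian

section point

variable {K : Type u} [Field K] {X : Scheme.{u}} (σ : Spec (CommRingCat.of K) ⟶ X)

/-- The only point of `Spec K`. -/
abbrev fieldPt (K : Type u) [Field K] : (Spec (CommRingCat.of K) : Scheme.{u}) :=
  IsLocalRing.closedPoint K

/-- A function dies on a field point iff it vanishes there. -/
lemma pb_eq_zero_iff_notMem_basicOpen {V : X.Opens} (a : Γ(X, V)) :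
    pb σ (le_refl (σ ⁻¹ᵁ V)) a = 0 ↔
      (σ (fieldPt K) ∈ V → σ (fieldPt K) ∉ X.basicOpen a) := by
  have : Subsingleton (Spec (CommRingCat.of K)) := inferInstanceAs (Subsingleton (PrimeSpectrum K))
  have hb : (Spec (CommRingCat.of K)).basicOpen (pb σ (le_refl (σ ⁻¹ᵁ V)) a) =
      σ ⁻¹ᵁ X.basicOpen a := by
    rw [Scheme.preimage_basicOpen]
    simp [pb, Scheme.Hom.appLE]
  constructor
  · intro h _ hmem
    rw [h, Scheme.basicOpen_zero] at hb
    exact (hb.ge hmem : fieldPt K ∈ (⊥ : (Spec (CommRingCat.of K)).Opens))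
  · intro h
    by_cases hz : σ (fieldPt K) ∈ V
    · refine (basicOpen_eq_bot_iff _).1 (hb.trans ?_)
      refine eq_bot_iff.2 fun w hw => ?_
      rw [Subsingleton.elim w (fieldPt K)] at hw
      exact absurd hw (h hz)
    · have := subsingleton_of_forall_notMem (C := Spec (CommRingCat.of K)) (V := σ ⁻¹ᵁ V)
        fun w hw => hz (by rw [← Subsingleton.elim w (fieldPt K)]; exact hw)
      exact Subsingleton.elim _ _

/-- The divisor of a field point seen as a section is the divisor of the point. -/
theorem isSectDiv_iff_isPointDiv (E : EffDiv X) :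
    IsSectDiv σ E ↔ IsPointDiv E (σ (fieldPt K)) := by
  constructor
  · intro h x V hV a
    rw [← pb_eq_zero_iff_notMem_basicOpen σ a]
    refine ⟨?_, fun ha => (h x).gen V hV a ha⟩
    rintro ⟨b, rfl⟩
    rw [map_mul, show E.eqn x hV = res hV (E.f x) from rfl, (h x).pb_res_eq_zero hV, zero_mul]
  · intro h x
    refine ⟨E.regular x, ?_, fun W hW a ha => ?_⟩
    · have h1 := (pb_eq_zero_iff_notMem_basicOpen σ _).2 ((h x _ le_rfl (E.eqn x le_rfl)).1 dvd_rfl)
      simpa [EffDiv.eqn] using h1
    · exact (h x W hW a).2 ((pb_eq_zero_iff_notMem_basicOpen σ a).1 ha)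

end point

section curve

variable {K : Type u} [Field K] [IsAlgClosed K] {C : Scheme.{u}}
  {c : C ⟶ Spec (CommRingCat.of K)} [IsIntegral C] [SmoothOfRelativeDimension 1 c]
  [LocallyOfFiniteType c]

instance isIso_specAlg_self : IsIso (specAlg (k := K) K) := by
  rw [specAlg_self]; infer_instance

instance isOpenImmersion_prC_self : IsOpenImmersion (prC c K) :=
  inferInstanceAs (IsOpenImmersion (pullback.fst c (specAlg (k := K) K)))

namespace CurveChart

variable (D : CurveChart c)

/-- The diagonal class restricted to a rational point is the class of the point. -/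
theorem comap_diagCls_eq_ptCls (y : SchemeHomOver (specAlg (k := K) K) c) :
    Pic.comap (baseChangeSnd c y) D.diagCls =
      Pic.comap (prC c K) (ptCls (y.1 (fieldPt K))) := by
  have hc : IsClosed ({y.1 (fieldPt K)} : Set C) := by
    have : Subsingleton (Spec (CommRingCat.of K)) :=
      inferInstanceAs (Subsingleton (PrimeSpectrum K))
    have hg : (inv (specAlg (k := K) K) ≫ y.1) ≫ c = 𝟙 _ := by
      rw [Category.assoc, y.2, IsIso.inv_hom_id]
    have := isClosedImmersion_of_comp_eq_id _ _ hg
    have hr := (inv (specAlg (k := K) K) ≫ y.1).isClosedEmbedding.isClosed_range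
    have e : ∀ w, (inv (specAlg (k := K) K) ≫ y.1) w = y.1 (fieldPt K) := fun w =>
      congrArg y.1 (Subsingleton.elim (inv (specAlg (k := K) K) w) (fieldPt K))
    rwa [Set.range_eq_singleton e] at hr
  obtain ⟨P, hP⟩ := exists_isPointDiv c hc
  rw [← hP.cls_eq_ptCls]
  have hPs : IsSectDiv y.1 P := (isSectDiv_iff_isPointDiv y.1 P).2 hP
  rcases D.point_mem_or y with hy | hy
  · rw [D.comap_diagCls y hy (fibresLocallyPrincipal_fun c D.affine₀)]
    exact IsSectDiv.cls_eq_comap (i := 𝟙 _) (by rw [ptSec_prC, Category.id_comp])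
      (fun w _ => ⟨w, rfl⟩) hPs (D.isSectDiv_pointDivisor y hy _)
  · rw [← D.diagCls_eq D.symm, D.symm.comap_diagCls y hy (fibresLocallyPrincipal_fun c D.affine₁)]
    exact IsSectDiv.cls_eq_comap (i := 𝟙 _) (by rw [ptSec_prC, Category.id_comp])
      (fun w _ => ⟨w, rfl⟩) hPs (D.symm.isSectDiv_pointDivisor y hy _)

/-- Fibres of the diagonal class over rational points. -/
theorem comap_diagCls_rationalPoint {s : Spec (CommRingCat.of K) ⟶ Spec (CommRingCat.of K)}
    (hs : specAlg (k := K) K = s) (t : SchemeHomOver s c) :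
    Pic.comap (baseChangeSnd c t) D.diagCls =
      Pic.comap (pullback.fst c s) (ptCls (t.1 (fieldPt K))) := by
  subst hs
  exact D.comap_diagCls_eq_ptCls t

include D in
/-- Two closed points differ by a class algebraically equivalent to zero. -/
theorem picAlgEquivZero_ptCls_div {z₀ z₁ : C} (h₀ : IsClosed ({z₀} : Set C))
    (h₁ : IsClosed ({z₁} : Set C)) : PicAlgEquivZero c (ptCls z₁ / ptCls z₀) := by
  have := geometricallyIntegral_of_isAlgClosed c
  have hs : specAlg (k := K) K = 𝟙 _ := specAlg_self
  let t (z : C) (hz : IsClosed ({z} : Set C)) :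
      SchemeHomOver (𝟙 (Spec (CommRingCat.of K))) c :=
    ⟨pointOfClosedPoint c z hz, pointOfClosedPoint_comp c z hz⟩
  have ht : ∀ z hz, (t z hz).1 (fieldPt K) = z := fun z hz => pointOfClosedPoint_apply c z hz _
  refine picAlgEquivZero_of_family c D.diagCls (t z₀ h₀) (t z₁ h₁) ?_ ?_
  · rw [D.comap_diagCls_rationalPoint hs, ht]
  · rw [D.comap_diagCls_rationalPoint hs, ht]

/-- A class of degree zero is algebraically equivalent to zero. -/
theorem picAlgEquivZero_of_deg_eq_zero {ξ : Pic C} (hd : D.deg ξ = 0) : PicAlgEquivZero c ξ := by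
  obtain ⟨z, hz⟩ := exists_isClosed_point (c := c)
  obtain ⟨S, hS, hcard, rfl⟩ := D.exists_eq_prod_div hd hz
  rw [← hcard]
  clear hd hcard
  induction S using Multiset.induction_on with
  | empty => simpa using picAlgEquivZero_one
  | cons w S ih =>
    have hw := D.picAlgEquivZero_ptCls_div hz (hS w (Multiset.mem_cons_self w S))
    have := hw.mul (ih fun v hv => hS v (Multiset.mem_cons_of_mem hv))
    convert this using 1
    rw [Multiset.map_cons, Multiset.prod_cons, Multiset.card_cons, pow_succ, div_eq_mul_inv,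
      mul_inv_rev, mul_mul_mul_comm]

omit [IsAlgClosed K] [IsIntegral C] [SmoothOfRelativeDimension 1 c] [LocallyOfFiniteType c] in
/-- The two definitions of the degree agree. -/
theorem deg_eq_chiDeg (ξ : Pic C) : D.deg ξ = D.chiDeg ξ := by
  obtain ⟨L, rfl⟩ := Pic.mk_surjective ξ
  rfl

/-- **Algebraic equivalence to zero is degree zero.** -/
theorem picAlgEquivZero_iff_deg_eq_zero (ξ : Pic C) : PicAlgEquivZero c ξ ↔ D.deg ξ = 0 := by
  refine ⟨fun h => ?_, D.picAlgEquivZero_of_deg_eq_zero⟩
  obtain ⟨L, rfl⟩ := Pic.mk_surjective ξ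
  rw [deg_eq_chiDeg, chiDeg_mk, chi_eq_one_of_picAlgEquivZero D h, sub_self]

end CurveChart

end curve

end Fermat.Agent.Jacobian
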