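import Fermat.Agent.Jacobian.Cech.Acyclic

/-!
# The Euler characteristic is constant in connected families

For a class on the base change of a curve to `R` with connected spectrum, the Euler
characteristics at all rational points of `R` agree.
-/

set_option autoImplicit false

noncomputable section

universe u

open CategoryTheory CategoryTheory.Limits AlgebraicGeometry TensorProduct

namespace Fermat.Agent.Jacobian

namespace PatchedModule

variable {R M₀ M₁ M₀₁ : Type*} [CommRing R] [AddCommGroup M₀] [Module R M₀] [AddCommGroup M₁]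
  [Module R M₁] [AddCommGroup M₀₁] [Module R M₀₁] (P : PatchedModule R M₀ M₁ M₀₁)

/-- Iterated base change is base change. -/
def baseChangeTowerIso (S T : Type*) [CommRing S] [CommRing T] [Algebra R S] [Algebra R T]
    [Algebra S T] [IsScalarTower R S T] :
    ChartIso ((P.baseChange S).baseChange T) (P.baseChange T) where
  e₀ := (AlgebraTensorModule.cancelBaseChange R S T T M₀).toLinearMap
  e₁ := (AlgebraTensorModule.cancelBaseChange R S T T M₁).toLinearMap
  e := (AlgebraTensorModule.cancelBaseChange R S T T M₀₁).toLinearMap
  e_r₀ m := by simp [baseChange, LinearMap.baseChange_baseChange]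
  e_r₁ m := by simp [baseChange, LinearMap.baseChange_baseChange]
  e_X m := by
    induction m using TensorProduct.induction_on with
    | zero => simp
    | add a b ha hb => simp only [map_add, ha, hb]
    | tmul t m =>
      induction m using TensorProduct.induction_on with
      | zero => simp
      | add a b ha hb => simp only [TensorProduct.tmul_add, map_add, ha, hb]
      | tmul s m => simp [baseChange]
  bij₀ := (AlgebraTensorModule.cancelBaseChange R S T T M₀).bijective
  bij₁ := (AlgebraTensorModule.cancelBaseChange R S T T M₁).bijective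

/-- The Euler characteristic at a field-valued point is the fibre one at its image. -/
theorem chi_baseChange_eq_fibreChi (K : Type*) [Field K] [Algebra R K] :
    (P.baseChange K).chi =
      P.fibreChi ⟨RingHom.ker (algebraMap R K), RingHom.ker_isPrime _⟩ := by
  let p : PrimeSpectrum R := ⟨RingHom.ker (algebraMap R K), RingHom.ker_isPrime _⟩
  have : p.asIdeal.IsPrime := p.isPrime
  let ι : p.asIdeal.ResidueField →+* K :=
    Ideal.ResidueField.lift p.asIdeal (algebraMap R K) le_rfl fun r hr =>
      isUnit_iff_ne_zero.mpr hr
  let _a : Algebra p.asIdeal.ResidueField K := ι.toAlgebra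
  have : IsScalarTower R p.asIdeal.ResidueField K :=
    IsScalarTower.of_algebraMap_eq fun r =>
      (Ideal.ResidueField.lift_algebraMap (I := p.asIdeal) (algebraMap R K) le_rfl
        (fun r hr => isUnit_iff_ne_zero.mpr hr) r).symm
  have h := (P.baseChangeTowerIso p.asIdeal.ResidueField K).index_eq
  exact h.trans ((P.baseChange p.asIdeal.ResidueField).chi_baseChange K)

end PatchedModule

variable {k : Type u} [Field k] {C : Scheme.{u}} {c : C ⟶ Spec (CommRingCat.of k)}

/-- The inclusion of the fibre over a rational point of `R`. -/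
def pointSection (c : C ⟶ Spec (CommRingCat.of k)) {R : Type u} [CommRing R] [Algebra k R]
    (φ : R →ₐ[k] k) : C ⟶ CR c R :=
  pullback.lift (𝟙 C) (c ≫ Spec.map (CommRingCat.ofHom φ.toRingHom)) (by
    have h : φ.toRingHom.comp (algebraMap k R) = RingHom.id k := RingHom.ext φ.commutes
    rw [Category.id_comp, Category.assoc, specAlg, ← Spec.map_comp, ← CommRingCat.ofHom_comp,
      h, CommRingCat.ofHom_id, Spec.map_id, Category.comp_id])

variable {R : Type u} [CommRing R] [Algebra k R]

@[reassoc] theorem pointSection_prC (φ : R →ₐ[k] k) : pointSection c φ ≫ prC c R = 𝟙 C :=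
  pullback.lift_fst _ _ _

@[reassoc] theorem pointSection_prR (φ : R →ₐ[k] k) :
    pointSection c φ ≫ prR c R = c ≫ Spec.map (CommRingCat.ofHom φ.toRingHom) :=
  pullback.lift_snd _ _ _

theorem preimage_overU_pointSection (φ : R →ₐ[k] k) (U : C.Opens) :
    pointSection c φ ⁻¹ᵁ overU c R U = U := by
  change (pointSection c φ ≫ prC c R) ⁻¹ᵁ U = U
  rw [pointSection_prC]
  rfl

theorem pb_pointSection_scalar (φ : R →ₐ[k] k) {V : (CR c R).Opens} {V' : C.Opens}
    (h : V' ≤ pointSection c φ ⁻¹ᵁ V) (r : R) :
    pb (pointSection c φ) h (scalar c R V r) = baseHom c V' (φ r) := by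
  change pb (pointSection c φ) h (pb (prR c R) (U := ⊤) (V := V) le_top _) =
    pb c (U := ⊤) (V := V') le_top ((Scheme.ΓSpecIso (CommRingCat.of k)).inv.hom (φ r))
  refine (pb_pb (pointSection c φ) (prR c R) (U := ⊤) (V := V) le_top h _).trans ?_
  refine Eq.trans ?_ (congrArg (pb c (U := ⊤) (V := V') le_top) (pb_specMap φ.toRingHom r))
  refine Eq.trans ?_ (pb_pb c (Spec.map (CommRingCat.ofHom φ.toRingHom)) (U := ⊤) (V := ⊤)
    le_top (W := V') le_top _).symm
  exact pb_congr (pointSection_prR φ) _ _

variable (R) in
/-- A function on a piece of `C_R`, seen in the `R`-algebra of functions over `R`. -/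
def ofFn (U : C.Opens) (z : Γ(CR c R, overU c R U)) : Fun (prR c R) (overU c R U) := z

variable (R) in
theorem ofFn_add (U : C.Opens) (z w : Γ(CR c R, overU c R U)) :
    ofFn R U (z + w) = ofFn R U z + ofFn R U w := rfl

variable (R) in
theorem ofFn_zero (U : C.Opens) : ofFn R U (0 : Γ(CR c R, overU c R U)) = 0 := rfl

variable (R) in
theorem ofFn_smul (U : C.Opens) (r : R) (z : Γ(CR c R, overU c R U)) :
    r • ofFn R U z = ofFn R U (scalar c R (overU c R U) r * z) := rfl

/-- The fibre over a rational point is a base change of two-chart presentations. -/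
theorem chartBaseChange_pointSection (D : CurveChart c) (φ : R →ₐ[k] k) :
    letI := φ.toRingHom.toAlgebra
    ChartBaseChange (S := k) (D.baseChange R) D (pointSection c φ) := by
  let _a : Algebra R k := φ.toRingHom.toAlgebra
  have hover : IsOverBase k (prR c R) c (pointSection c φ) :=
    fun h r => pb_pointSection_scalar φ h r
  have hback : ∀ (U : C.Opens) (a : Γ(C, U)),
      pb (pointSection c φ) (preimage_overU_pointSection φ U).ge
        (pb (prC c R) (le_refl (overU c R U)) a) = a := by
    intro U a
    refine (pb_pb (pointSection c φ) (prC c R) (le_refl (overU c R U)) _ a).trans ?_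
    refine (pb_congr (pointSection_prC φ) (U := U) (V := U) _ a).trans ?_
    exact (pb_id _ a).trans (res_refl _ a)
  have hbij : ∀ (U : C.Opens) (hU : IsAffineOpen U),
      Function.Bijective (funComp hover (preimage_overU_pointSection (c := c) φ U).ge) := by
    intro U hU
    let gen : Fun c U → k ⊗[R] Fun (prR c R) (overU c R U) := fun a =>
      (1 : k) ⊗ₜ ofFn R U (pb (prC c R) (le_refl (overU c R U)) a)
    have gen_add : ∀ a b, gen (a + b) = gen a + gen b := fun a b =>
      (congrArg (fun z => (1 : k) ⊗ₜ[R] ofFn R U z)
        (map_add (pb (prC c R) (le_refl (overU c R U))) a b)).trans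
        ((congrArg ((1 : k) ⊗ₜ[R] ·) (ofFn_add R U _ _)).trans (TensorProduct.tmul_add _ _ _))
    have gen_zero : gen 0 = 0 :=
      (congrArg (fun z => (1 : k) ⊗ₜ[R] ofFn R U z)
        (map_zero (pb (prC c R) (le_refl (overU c R U))))).trans
        ((congrArg ((1 : k) ⊗ₜ[R] ·) (ofFn_zero R U)).trans (TensorProduct.tmul_zero _ _))
    have gen_sum : ∀ s : k ⊗[R] Fun (prR c R) (overU c R U), ∃ a, s = gen a := by
      intro s
      induction s using TensorProduct.induction_on with
      | zero => exact ⟨0, gen_zero.symm⟩
      | add x y hx hy =>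
        obtain ⟨a, rfl⟩ := hx
        obtain ⟨b, rfl⟩ := hy
        exact ⟨a + b, (gen_add a b).symm⟩
      | tmul l z =>
        suffices h : ∀ w : R ⊗[k] Fun c U,
            ∃ a, l ⊗ₜ[R] ofFn R U (funMap c R (le_refl (overU c R U)) w) = gen a by
          obtain ⟨w, hw⟩ := (bijective_funMap c R hU).2 z
          obtain ⟨a, ha⟩ := h w
          exact ⟨a, (congrArg (fun z => l ⊗ₜ[R] ofFn R U z) hw.symm).trans ha⟩
        intro w
        induction w using TensorProduct.induction_on with
        | zero =>
          refine ⟨0, ?_⟩
          rw [gen_zero]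
          exact (congrArg (fun z => l ⊗ₜ[R] ofFn R U z)
            (map_zero (funMap c R (le_refl (overU c R U))))).trans
            ((congrArg (l ⊗ₜ[R] ·) (ofFn_zero R U)).trans (TensorProduct.tmul_zero _ _))
        | add x y hx hy =>
          obtain ⟨a, ha⟩ := hx
          obtain ⟨b, hb⟩ := hy
          refine ⟨a + b, ?_⟩
          rw [gen_add, ← ha, ← hb, ← TensorProduct.tmul_add, ← ofFn_add]
          exact congrArg (fun z => l ⊗ₜ[R] ofFn R U z)
            (map_add (funMap c R (le_refl (overU c R U))) x y)
        | tmul r a =>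
          refine ⟨(l * φ r) • a, ?_⟩
          have e1 : ofFn R U (funMap c R (le_refl (overU c R U)) (r ⊗ₜ a)) =
              r • ofFn R U (pb (prC c R) (le_refl (overU c R U)) a) :=
            (funMap_tmul c R (le_refl (overU c R U)) r a).trans (ofFn_smul R U r _).symm
          have e2 : ofFn R U (pb (prC c R) (le_refl (overU c R U)) ((l * φ r) • a)) =
              algebraMap k R (l * φ r) • ofFn R U (pb (prC c R) (le_refl (overU c R U)) a) :=
            ((map_mul (pb (prC c R) (le_refl (overU c R U))) (baseHom c U (l * φ r)) a).trans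
              (congrArg (· * _) (pb_baseHom c R (le_refl (overU c R U)) (l * φ r)))).trans
              (ofFn_smul R U _ _).symm
          show l ⊗ₜ[R] _ = (1 : k) ⊗ₜ[R] ofFn R U _
          rw [e1, e2, ← TensorProduct.smul_tmul, ← TensorProduct.smul_tmul]
          congr 1
          show φ r * l = φ (algebraMap k R (l * φ r)) * 1
          rw [φ.commutes, mul_one, mul_comm, Algebra.algebraMap_self, RingHom.id_apply]
    have hgen : ∀ a, funComp hover (preimage_overU_pointSection (c := c) φ U).ge (gen a) = a := by
      intro a
      rw [funComp_tmul, map_one, one_mul]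
      exact hback U a
    refine ⟨fun s s' h => ?_, fun a => ⟨gen a, hgen a⟩⟩
    obtain ⟨a, rfl⟩ := gen_sum s
    obtain ⟨a', rfl⟩ := gen_sum s'
    rw [hgen, hgen] at h
    rw [h]
  exact
    { over := hover
      le₀ := (preimage_overU_pointSection φ D.U₀).ge
      le₁ := (preimage_overU_pointSection φ D.U₁).ge
      pb_x := hback D.U₀ D.x
      bij₀ := hbij D.U₀ D.affine₀
      bij₁ := hbij D.U₁ D.affine₁ }

/-- The Euler characteristic on a rational fibre is the fibre Euler characteristic. -/
theorem chi_comap_pointSection (D : CurveChart c) (L : LineCocycle (CR c R)) (φ : R →ₐ[k] k) :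
    (D.cech (L.comap (pointSection c φ))).chi =
      ((D.baseChange R).cech L).fibreChi ⟨RingHom.ker φ.toRingHom, RingHom.ker_isPrime _⟩ := by
  let _a : Algebra R k := φ.toRingHom.toAlgebra
  exact ((chartBaseChange_pointSection D φ).iso L).index_eq.trans
    (((D.baseChange R).cech L).chi_baseChange_eq_fibreChi k)

/-- In a family over a connected base all rational fibres have the same Euler characteristic. -/
theorem chi_eq_of_preconnected [PreconnectedSpace (PrimeSpectrum R)] (D : CurveChart c)
    (L : LineCocycle (CR c R)) (φ ψ : R →ₐ[k] k) :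
    (D.cech (L.comap (pointSection c φ))).chi = (D.cech (L.comap (pointSection c ψ))).chi := by
  rw [chi_comap_pointSection, chi_comap_pointSection]
  exact ((D.baseChange R).cech L).isLocallyConstant_fibreChi.apply_eq_of_preconnectedSpace _ _

/-- Isomorphic cocycles have the same Euler characteristic. -/
theorem chi_eq_of_mk_eq (D : CurveChart c) {L M : LineCocycle C} (h : Pic.mk L = Pic.mk M) :
    (D.cech L).chi = (D.cech M).chi := by
  obtain ⟨e⟩ := Pic.mk_eq_mk.mp h
  exact (D.cechIso e).index_eq.symm

end Fermat.Agent.Jacobian
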