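import Fermat.Agent.Jacobian.Properties.AlgEquivDegree
import Fermat.Agent.Jacobian.Properties.Power
import Fermat.Agent.Jacobian.RiemannRoch.EffectiveDecomp
import Fermat.Agent.Jacobian.Represent.CutOfPoints

/-!
# The Abel–Jacobi family over a power of the curve

Summing the Abel–Jacobi classes of the coordinates gives a family over `Cⁿ` in the cut out functor;
for `n` the genus it reaches every point valued in an algebraically closed field.
-/

set_option autoImplicit false

noncomputable section

universe u

open CategoryTheory CategoryTheory.Limits AlgebraicGeometry AlgebraicGeometry.RelPicard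
  NeronModelInfra

namespace Fermat.Agent.Jacobian

variable {k : Type u} [Field k] {C : Scheme.{u}} {c : C ⟶ Spec (CommRingCat.of k)}

variable (c) in
/-- The first coordinate, over the base. -/
abbrev powHeadOver (n : ℕ) : SchemeHomOver (powHom c (n + 1)) c :=
  ⟨powHead c n, powHead_comp c n⟩

variable (c) in
/-- The other coordinates, over the base. -/
abbrev powTailOver (n : ℕ) : SchemeHomOver (powHom c (n + 1)) (powHom c n) :=
  ⟨powTail c n, powTail_comp c n⟩

variable [SmoothOfRelativeDimension 1 c] {ε : SchemeHomOver (𝟙 (Spec (CommRingCat.of k))) c}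

namespace EpsChart

variable (E : EpsChart c ε)

/-- The sum of the Abel–Jacobi classes of the coordinates. -/
def powClass : ∀ n : ℕ, RigPic c ε (powHom c n)
  | 0 => ⟨1, map_one _⟩
  | n + 1 =>
    ⟨(RigPic.map (powHeadOver c n) E.ajClass).1 * (RigPic.map (powTailOver c n) (powClass n)).1,
      by rw [map_mul, (RigPic.map (powHeadOver c n) E.ajClass).2,
        (RigPic.map (powTailOver c n) (powClass n)).2, one_mul]⟩

theorem comap_powClass_succ (n : ℕ) {T : Scheme.{u}} {t : T ⟶ Spec (CommRingCat.of k)}
    (s : SchemeHomOver t (powHom c (n + 1))) :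
    Pic.comap (baseChangeSnd c s) (E.powClass (n + 1)).1 =
      Pic.comap (baseChangeSnd c (postComp (powHeadOver c n) s)) E.ajClass.1 *
        Pic.comap (baseChangeSnd c (postComp (powTailOver c n) s)) (E.powClass n).1 := by
  rw [← baseChangeSnd_comp, ← baseChangeSnd_comp, Pic.comap_comp, Pic.comap_comp, ← map_mul]
  rfl

/-- The value of the family at a point given by a list of points of the curve. -/
theorem comap_powClass {T : Scheme.{u}} {t : T ⟶ Spec (CommRingCat.of k)} :
    ∀ (n : ℕ) (y : Fin n → SchemeHomOver t c),
      Pic.comap (baseChangeSnd c (⟨(powLift c t n y).1, (powLift c t n y).2⟩ :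
          SchemeHomOver t (powHom c n))) (E.powClass n).1 =
        ∏ i, Pic.comap (baseChangeSnd c (y i)) E.ajClass.1
  | 0, _ => by
    rw [Fin.prod_univ_zero]
    exact map_one _
  | n + 1, y => by
    rw [Fin.prod_univ_succ, comap_powClass_succ, ← comap_powClass n fun i => y i.succ]
    have h₁ : postComp (powHeadOver c n)
        (⟨(powLift c t (n + 1) y).1, (powLift c t (n + 1) y).2⟩ :
          SchemeHomOver t (powHom c (n + 1))) = y 0 := Subtype.ext (powLift_head c t n y)
    have h₂ : postComp (powTailOver c n)
        (⟨(powLift c t (n + 1) y).1, (powLift c t (n + 1) y).2⟩ :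
          SchemeHomOver t (powHom c (n + 1))) =
        ⟨(powLift c t n fun i => y i.succ).1, (powLift c t n fun i => y i.succ).2⟩ :=
      Subtype.ext (powLift_tail c t n y)
    rw [h₁, h₂]

variable [IsAlgClosed k] [IsIntegral C] [IsProper c]
  {K : Type u} [Field K] [IsAlgClosed K] [Algebra k K]

/-- The fibres of the Abel–Jacobi class are algebraically equivalent to zero. -/
theorem picAlgEquivZero_comap_ajClass (y : SchemeHomOver (specAlg (k := k) K) c) :
    PicAlgEquivZero (prR c K) (Pic.comap (baseChangeSnd c y) E.ajClass.1) := by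
  have := isIntegral_CR (c := c) K
  have := smoothOfRelativeDimension_prR_field (c := c) (K := K)
  rw [E.comap_ajClass, ← E.toCurveChart.ptCls_ptSec, ← E.ptCls_epsPt, ← div_eq_mul_inv]
  exact (E.toCurveChart.baseChange K).picAlgEquivZero_ptCls_div
    ((pointEquivClosedPoint (prR c K)) ⟨ptSec (epsPt ε K), ptSec_prR _⟩).2
    ((pointEquivClosedPoint (prR c K)) ⟨ptSec y, ptSec_prR _⟩).2

/-- The fibres of the family are algebraically equivalent to zero. -/
theorem picAlgEquivZero_comap_powClass :
    ∀ (n : ℕ) (s : SchemeHomOver (specAlg (k := k) K) (powHom c n)),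
      PicAlgEquivZero (prR c K) (Pic.comap (baseChangeSnd c s) (E.powClass n).1)
  | 0, s => by
    rw [show (E.powClass 0).1 = 1 from rfl, map_one]
    exact picAlgEquivZero_one
  | n + 1, s => by
    rw [comap_powClass_succ]
    exact (E.picAlgEquivZero_comap_ajClass _).mul (picAlgEquivZero_comap_powClass n _)

/-- The family over `Cⁿ` as an element of the cut out functor. -/
def powFamily (n : ℕ) : (subPicFunctor (algEquivZeroCut c ε)).obj (powHom c n) :=
  ((exists_obj_iff_points (E.powClass n).1).2 ⟨(E.powClass n).2,
    fun _ _ _ _ s => E.picAlgEquivZero_comap_powClass n s⟩).choose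

theorem powFamily_coe (n : ℕ) : (E.powFamily n).1 = (E.powClass n).1 :=
  ((exists_obj_iff_points (E.powClass n).1).2 ⟨(E.powClass n).2,
    fun _ _ _ _ s => E.picAlgEquivZero_comap_powClass n s⟩).choose_spec

/-- Every geometric point of the cut comes from a point of `C^g`. -/
theorem exists_map_powFamily_eq (K : Type u) [Field K] [IsAlgClosed K] [Algebra k K]
    (a : (subPicFunctor (algEquivZeroCut c ε)).obj (specAlg (k := k) K)) :
    ∃ (s : Spec (CommRingCat.of K) ⟶ (powOver c E.toCurveChart.genus).left)
      (hs : s ≫ powHom c E.toCurveChart.genus = specAlg (k := k) K),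
      (subPicFunctor (algEquivZeroCut c ε)).map s hs (E.powFamily _) = a := by
  have := isIntegral_CR (c := c) K
  have := smoothOfRelativeDimension_prR_field (c := c) (K := K)
  obtain ⟨y, hy⟩ := E.exists_eq_prod_ajClass a.1
    (((E.toCurveChart.baseChange K).picAlgEquivZero_iff_deg_eq_zero a.1).1
      (picAlgEquivZero_obj_specAlg a))
  refine ⟨(powLift c _ _ y).1, (powLift c _ _ y).2, Subtype.ext ?_⟩
  rw [subPicFunctor_map_coe, E.powFamily_coe, hy]
  exact E.comap_powClass _ y

end EpsChart

end Fermat.Agent.Jacobian
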