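import Fermat.Agent.Jacobian.Divisor.AffineIdeal
import Fermat.Agent.Jacobian.Transfer

/-!
# The divisor of a section

`f` is an equation on `V` of the image of `σ : T ⟶ X` if it is regular, vanishes on the image and
divides every function that does. Such equations are unique up to units, so a divisor given by
them has a well defined class.
-/

set_option autoImplicit false

noncomputable section

universe u

open CategoryTheory TopologicalSpace AlgebraicGeometry nonZeroDivisors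

namespace Fermat.Agent.Jacobian

variable {T X : Scheme.{u}} (σ : T ⟶ X)

/-- `f` is an equation on `V` of the image of `σ`. -/
structure IsSectEqn (V : X.Opens) (f : Γ(X, V)) : Prop where
  regular : ∀ (W : X.Opens) (h : W ≤ V), res h f ∈ Γ(X, W)⁰
  vanish : pb σ (le_refl (σ ⁻¹ᵁ V)) f = 0
  gen : ∀ (W : X.Opens) (h : W ≤ V) (a : Γ(X, W)),
    pb σ (le_refl (σ ⁻¹ᵁ W)) a = 0 → res h f ∣ a

namespace IsSectEqn

variable {σ} {V V' : X.Opens} {f : Γ(X, V)} {g : Γ(X, V')}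

lemma pb_res_eq_zero (hf : IsSectEqn σ V f) {W : X.Opens} (h : W ≤ V) :
    pb σ (le_refl (σ ⁻¹ᵁ W)) (res h f) = 0 := by
  have h1 := congrArg (res (σ.preimage_mono h)) hf.vanish
  rw [map_zero, res_pb] at h1
  rw [pb_res]
  exact h1

lemma restrict (hf : IsSectEqn σ V f) {W : X.Opens} (h : W ≤ V) : IsSectEqn σ W (res h f) where
  regular W' h' := by rw [res_res]; exact hf.regular W' _
  vanish := hf.pb_res_eq_zero h
  gen W' h' a ha := by rw [res_res]; exact hf.gen W' _ a ha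

lemma dvd (hf : IsSectEqn σ V f) (hg : IsSectEqn σ V' g) {W : X.Opens} (hV : W ≤ V)
    (hV' : W ≤ V') : res hV' g ∣ res hV f :=
  hg.gen W hV' _ (hf.pb_res_eq_zero hV)

lemma associated (hf : IsSectEqn σ V f) (hg : IsSectEqn σ V' g) {W : X.Opens} (hV : W ≤ V)
    (hV' : W ≤ V') : Associated (res hV f) (res hV' g) := by
  obtain ⟨c, hc⟩ := hg.dvd hf hV' hV
  obtain ⟨d, hd⟩ := hf.dvd hg hV hV'
  have h : c * d = 1 := by
    refine (mul_cancel_left_mem_nonZeroDivisors (hf.regular W hV)).1 ?_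
    rw [← mul_assoc, ← hc, ← hd, mul_one]
  exact ⟨⟨c, d, h, by rw [mul_comm, h]⟩, hc.symm⟩

/-- Being an equation is local. -/
lemma of_cover {ι : Type*} (O : ι → X.Opens) (hO : ∀ i, O i ≤ V) (hc : ∀ x ∈ V, ∃ i, x ∈ O i)
    (h : ∀ i, IsSectEqn σ (O i) (res (hO i) f)) : IsSectEqn σ V f := by
  have hreg : ∀ (W : X.Opens) (hW : W ≤ V), res hW f ∈ Γ(X, W)⁰ := fun W hW => by
    refine mem_nonZeroDivisors_iff_right.2 fun b hb => ?_
    refine eq_of_cover (fun i => O i ⊓ W) (fun i => inf_le_right)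
      (fun z hz => (hc z (hW hz)).elim fun i hi => ⟨i, hi, hz⟩) fun i => ?_
    have h1 := congrArg (res (inf_le_right : O i ⊓ W ≤ W)) hb
    rw [map_mul, map_zero, res_res] at h1
    have h2 := (h i).regular (O i ⊓ W) inf_le_left
    rw [res_res] at h2
    rw [map_zero]
    exact (mem_nonZeroDivisors_iff_right.1 h2) _ h1
  refine ⟨hreg, ?_, fun W hW a ha => ?_⟩
  · refine eq_of_cover (fun i => σ ⁻¹ᵁ O i) (fun i => σ.preimage_mono (hO i))
      (fun z hz => hc (σ z) hz) fun i => ?_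
    have h1 := (h i).vanish
    rw [pb_res] at h1
    rw [res_pb, map_zero]
    exact h1
  · refine dvd_of_cover (fun i => O i ⊓ W) (fun i => inf_le_right)
      (fun z hz => (hc z (hW hz)).elim fun i hi => ⟨i, hi, hz⟩)
      (fun W' h' => by rw [res_res]; exact hreg _ _) fun i => ?_
    have h1 := (h i).gen (O i ⊓ W) inf_le_left (res inf_le_right a) (by
      have := congrArg (res (σ.preimage_mono (inf_le_right : O i ⊓ W ≤ W))) ha
      rw [map_zero, res_pb] at this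
      rw [pb_res]
      exact this)
    rw [res_res] at h1
    rw [res_res]
    exact h1

end IsSectEqn

/-- An equation of an ideal of an affine open which cuts out the image of a section from an
affine scheme is an equation of the section. -/
theorem GenBy.isSectEqn [IsAffine T] {U : X.Opens} {I : Ideal Γ(X, U)} {V : X.Opens}
    {f : Γ(X, V)} (hf : GenBy U I V f) (hreg : ∀ (W : X.Opens) (h : W ≤ V), res h f ∈ Γ(X, W)⁰)
    (hU : IsAffineOpen U) (hσ : σ ⁻¹ᵁ U = ⊤)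
    (hI : ∀ a, a ∈ I ↔ pb σ (V := ⊤) hσ.ge a = 0) : IsSectEqn σ V f where
  regular := hreg
  vanish := by
    have hzU : ∀ z : T, σ z ∈ U := fun z => hσ.ge (Set.mem_univ z)
    choose O hOV hOU hzO hm using fun z : (σ ⁻¹ᵁ V : T.Opens) => hf.mem (σ z.1) z.2 (hzU z.1)
    refine eq_of_cover (fun z : (σ ⁻¹ᵁ V : T.Opens) => σ ⁻¹ᵁ O z)
      (fun z => σ.preimage_mono (hOV z)) (fun z hz => ⟨⟨z, hz⟩, hzO ⟨z, hz⟩⟩) fun z => ?_
    have hle : I.map (res (hOU z)) ≤ RingHom.ker (pb σ (le_refl (σ ⁻¹ᵁ O z))) := by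
      refine Ideal.map_le_iff_le_comap.2 fun b hb => ?_
      rw [Ideal.mem_comap, RingHom.mem_ker, pb_res]
      have h1 := congrArg (res (le_top : σ ⁻¹ᵁ O z ≤ ⊤)) ((hI b).1 hb)
      rw [map_zero, res_pb] at h1
      exact h1
    have h2 := RingHom.mem_ker.1 (hle (hm z))
    rw [pb_res] at h2
    rw [res_pb, map_zero]
    exact h2
  gen W hW a ha := by
    classical
    have key : ∀ z : W, ∃ (O : X.Opens) (hO : O ≤ W), z.1 ∈ O ∧
        res (hO.trans hW) f ∣ res hO a := by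
      intro z
      by_cases hz : z.1 ∈ U
      · obtain ⟨t, ht, hzt⟩ := hU.exists_basicOpen_le (V := W ⊓ U) ⟨z.1, z.2, hz⟩ hz
        refine ⟨X.basicOpen t, ht.trans inf_le_left, hzt, ?_⟩
        obtain ⟨n, a', ha'⟩ := exists_res_eq_pow_mul hU t rfl (X.basicOpen_le t)
          (res (ht.trans inf_le_left) a)
        -- `t ^ m * a'` lies in the ideal
        have hB : σ ⁻¹ᵁ X.basicOpen t = T.basicOpen (pb σ (V := ⊤) hσ.ge t) := by
          rw [Scheme.preimage_basicOpen]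
          have e : pb σ (V := ⊤) hσ.ge t = res hσ.ge (σ.app U t) := rfl
          rw [e, basicOpen_res']
          simp
        have h0 : res (le_top : σ ⁻¹ᵁ X.basicOpen t ≤ ⊤) (pb σ (V := ⊤) hσ.ge a') = 0 := by
          have h1 := congrArg (pb σ (le_refl (σ ⁻¹ᵁ X.basicOpen t))) ha'
          have h2 := congrArg (res (σ.preimage_mono (ht.trans inf_le_left) :
            σ ⁻¹ᵁ X.basicOpen t ≤ σ ⁻¹ᵁ W)) ha
          rw [map_zero, res_pb] at h2
          rw [map_mul, pb_res, pb_res] at h1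
          rw [res_pb]
          refine h1.trans ?_
          rw [h2, mul_zero]
        obtain ⟨m, hm⟩ := exists_pow_mul_eq_zero (isAffineOpen_top T) (pb σ (V := ⊤) hσ.ge t)
          (pb σ (V := ⊤) hσ.ge a') hB le_top h0
        have hI' : t ^ m * a' ∈ I := (hI _).2 (by rw [map_mul, map_pow]; exact hm)
        refine hf.dvd_of_mem_map _ (X.basicOpen_le t) ?_
        have hmem := Ideal.mem_map_of_mem (res (X.basicOpen_le t)) hI'
        rw [map_mul, map_pow, ha', ← mul_assoc, ← pow_add] at hmem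
        obtain ⟨v, hv⟩ := (isUnit_res_basicOpen' t).pow (m + n)
        rw [← hv] at hmem
        exact (I.map (res (X.basicOpen_le t))).unit_mul_mem_iff_mem v.isUnit |>.1 hmem
      · obtain ⟨O, hOV, hzO, hu⟩ := hf.unit z.1 (hW z.2) hz
        refine ⟨O ⊓ W, inf_le_right, ⟨hzO, z.2⟩, IsUnit.dvd ?_⟩
        simpa using hu.map (res (inf_le_left : O ⊓ W ≤ O))
    choose O hO hzO hd using key
    refine dvd_of_cover O hO (fun z hz => ⟨⟨z, hz⟩, hzO ⟨z, hz⟩⟩)
      (fun W' h' => by rw [res_res]; exact hreg _ _) fun i => ?_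
    rw [res_res]
    exact hd i

section OpenImmersion

variable {σ} {T' X' : Scheme.{u}} {σ' : T' ⟶ X'} {i : T' ⟶ T} {j : X' ⟶ X}

lemma pb_sect_eq_zero_iff [IsOpenImmersion i] [IsOpenImmersion j] (hsq : σ' ≫ j = i ≫ σ)
    (hcart : σ ⁻¹ᵁ j.opensRange ≤ i.opensRange) {W : X.Opens} (hW : W ≤ j.opensRange)
    (a : Γ(X, W)) :
    pb σ' (le_refl (σ' ⁻¹ᵁ j ⁻¹ᵁ W)) (pb j (le_refl (j ⁻¹ᵁ W)) a) = 0 ↔
      pb σ (le_refl (σ ⁻¹ᵁ W)) a = 0 := by
  have hpre : σ' ⁻¹ᵁ j ⁻¹ᵁ W = i ⁻¹ᵁ σ ⁻¹ᵁ W := by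
    rw [← Scheme.Hom.comp_preimage, hsq, Scheme.Hom.comp_preimage]
  have e : pb σ' (le_refl (σ' ⁻¹ᵁ j ⁻¹ᵁ W)) (pb j (le_refl (j ⁻¹ᵁ W)) a) =
      res hpre.le (pb i (le_refl (i ⁻¹ᵁ σ ⁻¹ᵁ W)) (pb σ (le_refl (σ ⁻¹ᵁ W)) a)) := by
    rw [pb_pb, pb_pb, pb_congr hsq, res_pb]
  rw [e]
  constructor
  · intro h
    refine eq_of_pb_eq i ((σ.preimage_mono hW).trans hcart) ?_
    have h1 := congrArg (res hpre.ge) h
    rw [map_zero, res_res, res_refl] at h1
    rw [map_zero]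
    exact h1
  · intro h
    rw [h, map_zero, map_zero]

/-- Equations of a section and of its restriction to an open subscheme. -/
theorem isSectEqn_pb_iff [IsOpenImmersion i] [IsOpenImmersion j] (hsq : σ' ≫ j = i ≫ σ)
    (hcart : σ ⁻¹ᵁ j.opensRange ≤ i.opensRange) {V : X.Opens} (hV : V ≤ j.opensRange)
    (f : Γ(X, V)) :
    IsSectEqn σ' (j ⁻¹ᵁ V) (pb j (le_refl (j ⁻¹ᵁ V)) f) ↔ IsSectEqn σ V f := by
  constructor
  · intro h
    refine ⟨fun W hW => ?_, ?_, fun W hW a ha => ?_⟩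
    · refine mem_nonZeroDivisors_iff_right.2 fun b hb => ?_
      refine eq_of_pb_eq j (hW.trans hV) ?_
      rw [map_zero]
      have h1 := congrArg (pb j (le_refl (j ⁻¹ᵁ W))) hb
      rw [map_mul, map_zero, pb_res] at h1
      have h2 := h.regular (j ⁻¹ᵁ W) (j.preimage_mono hW)
      rw [res_pb] at h2
      exact (mem_nonZeroDivisors_iff_right.1 h2) _ h1
    · exact (pb_sect_eq_zero_iff hsq hcart hV f).1 h.vanish
    · obtain ⟨c, hc⟩ := h.gen (j ⁻¹ᵁ W) (j.preimage_mono hW) (pb j le_rfl a)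
        ((pb_sect_eq_zero_iff hsq hcart (hW.trans hV) a).2 ha)
      refine ⟨pbInv j (hW.trans hV) c, eq_of_pb_eq j (hW.trans hV) ?_⟩
      rw [map_mul, pb_pbInv, res_refl, hc, res_pb, pb_res]
  · intro h
    have hsurj : ∀ W' : X'.Opens, W' ≤ j ⁻¹ᵁ V → ∃ W ≤ V, W' = j ⁻¹ᵁ W := fun W' hW' =>
      ⟨j ''ᵁ W', fun z hz => by
        obtain ⟨w, hw, rfl⟩ := hz
        exact hW' hw, (j.preimage_image_eq W').symm⟩
    refine ⟨fun W' hW' => ?_, (pb_sect_eq_zero_iff hsq hcart hV f).2 h.vanish,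
      fun W' hW' a ha => ?_⟩
    · obtain ⟨W, hW, rfl⟩ := hsurj W' hW'
      refine mem_nonZeroDivisors_iff_right.2 fun b hb => ?_
      obtain ⟨b, rfl⟩ := (pb_bijective j (hW.trans hV)).2 b
      rw [res_pb, show pb j (hW'.trans le_rfl) f = pb j (le_refl (j ⁻¹ᵁ W)) (res hW f) from
        (pb_res _ _ _ _).symm, ← map_mul] at hb
      have h1 := (mem_nonZeroDivisors_iff_right.1 (h.regular W hW)) b
        ((pb_bijective j (hW.trans hV)).1 (by rw [hb, map_zero]))
      rw [h1, map_zero]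
    · obtain ⟨W, hW, rfl⟩ := hsurj W' hW'
      obtain ⟨a, rfl⟩ := (pb_bijective j (hW.trans hV)).2 a
      obtain ⟨c, hc⟩ := h.gen W hW a ((pb_sect_eq_zero_iff hsq hcart (hW.trans hV) a).1 ha)
      refine ⟨pb j le_rfl c, ?_⟩
      rw [hc, map_mul, pb_res, res_pb]

end OpenImmersion

/-- A divisor given by equations of the image of `σ`. -/
def IsSectDiv (D : EffDiv X) : Prop := ∀ x, IsSectEqn σ (D.V x) (D.f x)

variable {σ}

/-- The class of the divisor of a section is well defined. -/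
theorem IsSectDiv.cls_eq {D E : EffDiv X} (hD : IsSectDiv σ D) (hE : IsSectDiv σ E) :
    E.cls = D.cls := by
  have h : EffDiv.IsPullback (𝟙 X) D E := fun x W hWE hWD => by
    rw [pb_id (U := D.V ((𝟙 X : X ⟶ X) x)) (V := W)]
    exact (hD _).associated (hE x) hWD hWE
  exact h.cls_eq.trans (Pic.comap_id _)

/-- Divisors of sections and open immersions. -/
theorem IsSectDiv.cls_eq_comap {T' X' : Scheme.{u}} {σ' : T' ⟶ X'} {i : T' ⟶ T} {j : X' ⟶ X}
    [IsOpenImmersion i] [IsOpenImmersion j] (hsq : σ' ≫ j = i ≫ σ)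
    (hcart : σ ⁻¹ᵁ j.opensRange ≤ i.opensRange) {D : EffDiv X} {E : EffDiv X'}
    (hD : IsSectDiv σ D) (hE : IsSectDiv σ' E) : E.cls = Pic.comap j D.cls := by
  refine EffDiv.IsPullback.cls_eq fun x W hWE hWD => ?_
  have hVr : D.V (j x) ⊓ j.opensRange ≤ j.opensRange := inf_le_right
  have hle : W ≤ j ⁻¹ᵁ (D.V (j x) ⊓ j.opensRange) := fun z hz => ⟨hWD hz, ⟨z, rfl⟩⟩
  have h1 := (isSectEqn_pb_iff hsq hcart hVr _).2
    ((hD (j x)).restrict (inf_le_left : D.V (j x) ⊓ j.opensRange ≤ D.V (j x)))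
  have h2 := h1.associated (hE x) hle hWE
  rw [res_pb, pb_res] at h2
  exact h2

/-- A section which has equations near every point has a divisor. -/
theorem exists_isSectDiv (h : ∀ x, ∃ (V : X.Opens) (f : Γ(X, V)), x ∈ V ∧ IsSectEqn σ V f) :
    ∃ D : EffDiv X, IsSectDiv σ D := by
  choose V f hx hf using h
  exact ⟨⟨V, hx, f, fun x y W hxW hyW => (hf x).dvd (hf y) hxW hyW, fun x => (hf x).regular⟩, hf⟩

end Fermat.Agent.Jacobian
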