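import Fermat.Agent.Jacobian.Divisor.ChartDiv
import Fermat.Agent.Jacobian.Properties.SectionDivisor
import Fermat.Prelude.Def_AlgebraicGeometry_RelativePicardFunctor

/-!
# The divisor of a point of a chart is the divisor of a section
-/

set_option autoImplicit false

noncomputable section

universe u

open CategoryTheory CategoryTheory.Limits AlgebraicGeometry AlgebraicGeometry.RelPicard
  NeronModelInfra TensorProduct

namespace Fermat.Agent.Jacobian

variable {k : Type u} [Field k] {C : Scheme.{u}} {c : C ⟶ Spec (CommRingCat.of k)}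
  {R : Type u} [CommRing R] [Algebra k R]

/-- The section of `C_R` given by an `R`-point. -/
abbrev ptSec (y : SchemeHomOver (specAlg (k := k) R) c) : Spec (CommRingCat.of R) ⟶ CR c R :=
  pullback.lift y.1 (𝟙 _) (by rw [y.2, Category.id_comp])

@[reassoc]
lemma ptSec_prC (y : SchemeHomOver (specAlg (k := k) R) c) : ptSec y ≫ prC c R = y.1 :=
  pullback.lift_fst _ _ _

@[reassoc]
lemma ptSec_prR (y : SchemeHomOver (specAlg (k := k) R) c) : ptSec y ≫ prR c R = 𝟙 _ :=
  pullback.lift_snd _ _ _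

/-- A point lying in `U`, as a map on functions. -/
def pointHom (y : SchemeHomOver (specAlg (k := k) R) c) {U : C.Opens} (hy : y.1 ⁻¹ᵁ U = ⊤) :
    Fun c U →ₐ[k] R where
  toRingHom := (Scheme.ΓSpecIso (CommRingCat.of R)).hom.hom.comp
    (pb y.1 (U := U) (V := ⊤) hy.ge)
  commutes' a := by
    change (Scheme.ΓSpecIso (CommRingCat.of R)).hom (pb y.1 (U := U) (V := ⊤) hy.ge
      (pb c (U := ⊤) (V := U) le_top ((Scheme.ΓSpecIso (CommRingCat.of k)).inv a))) = _
    rw [pb_pb, pb_congr y.2]
    change (Scheme.ΓSpecIso (CommRingCat.of R)).hom (pb (Spec.map (CommRingCat.ofHom (algebraMap k R))) (U := ⊤) (V := ⊤) le_top _) = _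
    rw [pb_specMap]
    exact congr($((Scheme.ΓSpecIso (CommRingCat.of R)).inv_hom_id) (algebraMap k R a))

lemma inv_pointHom (y : SchemeHomOver (specAlg (k := k) R) c) {U : C.Opens}
    (hy : y.1 ⁻¹ᵁ U = ⊤) (a : Fun c U) :
    (Scheme.ΓSpecIso (CommRingCat.of R)).inv (pointHom y hy a) = pb y.1 hy.ge a :=
  congr($((Scheme.ΓSpecIso (CommRingCat.of R)).hom_inv_id) (pb y.1 (U := U) (V := ⊤) hy.ge a))

lemma preimage_ptSec_overU (y : SchemeHomOver (specAlg (k := k) R) c) (U : C.Opens) :
    ptSec y ⁻¹ᵁ overU c R U = y.1 ⁻¹ᵁ U := by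
  change (ptSec y ≫ prC c R) ⁻¹ᵁ U = _
  rw [ptSec_prC]

lemma pointHom_comp (y : SchemeHomOver (specAlg (k := k) R) c) {U : C.Opens}
    (hy : y.1 ⁻¹ᵁ U = ⊤) {S : Type u} [CommRing S] [Algebra k S] (φ : R →ₐ[k] S)
    (y' : SchemeHomOver (specAlg (k := k) S) c)
    (e : y'.1 = Spec.map (CommRingCat.ofHom φ.toRingHom) ≫ y.1) (hy' : y'.1 ⁻¹ᵁ U = ⊤) :
    pointHom y' hy' = φ.comp (pointHom y hy) := by
  refine AlgHom.ext fun a =>
    (Scheme.ΓSpecIso (CommRingCat.of S)).commRingCatIsoToRingEquiv.symm.injective ?_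
  change (Scheme.ΓSpecIso (CommRingCat.of S)).inv (pointHom y' hy' a) =
    (Scheme.ΓSpecIso (CommRingCat.of S)).inv (φ.toRingHom (pointHom y hy a))
  rw [inv_pointHom, ← pb_specMap φ.toRingHom, inv_pointHom, pb_congr e, pb_pb]

namespace CurveChart

variable (ch : CurveChart c)

lemma pb_ptSec_funRingMap (y : SchemeHomOver (specAlg (k := k) R) c)
    (hy : y.1 ⁻¹ᵁ ch.U₀ = ⊤) (h : (⊤ : (Spec (CommRingCat.of R)).Opens) ≤
      ptSec y ⁻¹ᵁ overU c R ch.U₀) (z : R ⊗[k] Fun c ch.U₀) :
    pb (ptSec y) h (ch.funRingMap R z) = (Scheme.ΓSpecIso (CommRingCat.of R)).inv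
      (Algebra.TensorProduct.lift (Algebra.ofId R R) (pointHom y hy)
        (fun _ _ => Commute.all _ _) z) := by
  induction z using TensorProduct.induction_on with
  | zero => simp only [map_zero]
  | add a b ha hb =>
    simp only [map_add] at ha hb ⊢
    exact congrArg₂ (· + ·) ha hb
  | tmul r a =>
    rw [Algebra.TensorProduct.lift_tmul, funRingMap_apply, funMap_tmul]
    refine (map_mul (pb (ptSec y) h) (scalar c R _ r)
      (pb (prC c R) (V := overU c R ch.U₀) le_rfl a)).trans ?_
    rw [map_mul, inv_pointHom]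
    congr 1
    · change pb (ptSec y) h (pb (prR c R) (U := ⊤) le_top
        ((Scheme.ΓSpecIso (CommRingCat.of R)).inv r)) = _
      rw [pb_pb, pb_congr (ptSec_prR y), pb_id]
      exact res_refl _ _
    · rw [pb_pb]
      exact pb_congr (ptSec_prC y) _ _

theorem isSectDiv_pointDivisor (y : SchemeHomOver (specAlg (k := k) R) c)
    (hy : y.1 ⁻¹ᵁ ch.U₀ = ⊤) (H : FibresLocallyPrincipal k (Fun c ch.U₀)) :
    IsSectDiv (ptSec y) (ch.pointDivisor (pointHom y hy) H) := fun x => by
  have hσ : ptSec y ⁻¹ᵁ overU c R ch.U₀ = ⊤ := (preimage_ptSec_overU y ch.U₀).trans hy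
  refine (ch.isGenBy_pointDivisor _ H x).isSectEqn _ ((ch.pointDivisor _ H).regular x)
    (isAffineOpen_overU c R ch.affine₀) hσ fun a => ?_
  obtain ⟨z, rfl⟩ := (ch.funRingMap_bijective R).2 a
  rw [ch.mem_idealOn, pointIdeal, RingHom.mem_ker, ch.pb_ptSec_funRingMap y hy]
  exact (map_eq_zero_iff _
    (Scheme.ΓSpecIso (CommRingCat.of R)).commRingCatIsoToRingEquiv.symm.injective).symm

theorem pointIdeal_map (p : Fun c ch.U₀ →ₐ[k] R) {S : Type u} [CommRing S] [Algebra k S]
    (φ : R →ₐ[k] S) :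
    (ch.pointIdeal p).map (ch.baseChangeHom φ) = ch.pointIdeal (φ.comp p) := by
  refine le_antisymm (Ideal.map_le_iff_le_comap.2 fun z hz => ?_) fun z hz => ?_
  · rw [Ideal.mem_comap]
    simp only [pointIdeal, RingHom.mem_ker] at hz ⊢
    have key : ∀ z, Algebra.TensorProduct.lift (Algebra.ofId S S) (φ.comp p)
        (fun _ _ => Commute.all _ _) (ch.baseChangeHom φ z) =
        φ (Algebra.TensorProduct.lift (Algebra.ofId R R) p (fun _ _ => Commute.all _ _) z) := by
      intro z
      induction z using TensorProduct.induction_on with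
      | zero => simp
      | add a b ha hb => simp only [map_add, ha, hb]
      | tmul r a => simp
    rw [key, hz, map_zero]
  · have key : ∀ w : S ⊗[k] Fun c ch.U₀,
        w - Algebra.TensorProduct.lift (Algebra.ofId S S) (φ.comp p) (fun _ _ => Commute.all _ _)
          w ⊗ₜ[k] (1 : Fun c ch.U₀) ∈ (ch.pointIdeal p).map (ch.baseChangeHom φ) := by
      intro w
      induction w using TensorProduct.induction_on with
      | zero => simp
      | add a b ha hb =>
        rw [map_add, TensorProduct.add_tmul, add_sub_add_comm]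
        exact add_mem ha hb
      | tmul s a =>
        have h1 := Ideal.mem_map_of_mem (ch.baseChangeHom φ) (ch.mem_pointIdeal_tmul p a)
        have h2 := Ideal.mul_mem_left _ (s ⊗ₜ[k] (1 : Fun c ch.U₀)) h1
        simp only [map_sub, Algebra.TensorProduct.map_tmul, map_one, AlgHom.coe_id, id,
          mul_sub, Algebra.TensorProduct.tmul_mul_tmul, mul_one, one_mul] at h2
        simpa using h2
    simp only [pointIdeal, RingHom.mem_ker] at hz
    have h := key z
    rw [hz, TensorProduct.zero_tmul, sub_zero] at h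
    exact h

theorem cls_pointDivisor_comp (p : Fun c ch.U₀ →ₐ[k] R) {S : Type u} [CommRing S] [Algebra k S]
    (φ : R →ₐ[k] S) (H : FibresLocallyPrincipal k (Fun c ch.U₀)) :
    (ch.pointDivisor (φ.comp p) H).cls =
      Pic.comap (crMap c R S φ) (ch.pointDivisor p H).cls :=
  haveI := ch.finite_pointIdeal p
  haveI := ch.projective_pointIdeal p
  haveI := ch.finite_pointIdeal (φ.comp p)
  haveI := ch.projective_pointIdeal (φ.comp p)
  ch.cls_divisor_map (ch.pointIdeal p) φ (ch.pointIdeal (φ.comp p)) (ch.pointIdeal_map p φ) H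

end CurveChart

end Fermat.Agent.Jacobian
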